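/-
P-S48 (Deligne-Serre), block DS2: CONTRACTS (helper52).  Blueprint: note 1010.

Definitions only (plus trivial lemmas).  Everything here is hypothesis-style: the producers
(H1 = Hecke operators on `Γ₁(M)`, G1 = the `Γ₁`-gateway, E-WP, DS0) prove instances of these
shapes, `DS2/Main.lean` consumes them.
-/
import Mathlib
import Fermat.Prelude.Def_GaloisRep_Residual
import Fermat.Prelude.Def_Deformations_MatrixRepresentation

set_option autoImplicit false

open CongruenceSubgroup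
open scoped MatrixGroups ModularForm

namespace Fermat.Agent.S48x.DS2

local notation "Γℚ" => (AlgebraicClosure ℚ ≃ₐ[ℚ] AlgebraicClosure ℚ)
local notation "Zbar" => integralClosure ℤ ℂ

/-! ### H1: Hecke operators on weight-`k` cusp forms for `Γ₁(M)` -/

/-- The package of Hecke operators `T_p` (`p ∤ M`) and diamond operators on
`S_k(Γ₁(M))`, with the two facts used downstream: the diamond operator is the slash action of
any element of `Γ₀(M)` with the given lower right entry, and the `q`-expansion formula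
`a_n(T_p f) = a_{pn}(f) + p^(k-1) a_{n/p}(⟨p⟩ f)`. -/
structure HeckeOps1 (M : ℕ) [NeZero M] (k : ℤ) where
  /-- the diamond operators -/
  diam : (ZMod M)ˣ →* Module.End ℂ (CuspForm (Gamma1 M) k)
  /-- the operator `T_p`; only meaningful for primes `p ∤ M` -/
  T : ℕ → Module.End ℂ (CuspForm (Gamma1 M) k)
  diam_slash : ∀ (d : (ZMod M)ˣ) (γ : SL(2, ℤ)), γ ∈ Gamma0 M → ((γ 1 1 : ℤ) : ZMod M) = d →
    ∀ f : CuspForm (Gamma1 M) k, (⇑(diam d f) : UpperHalfPlane → ℂ) = (⇑f) ∣[k] γ
  qCoeff_T : ∀ (p : ℕ) (hp : p.Prime) (hpM : ¬ p ∣ M) (f : CuspForm (Gamma1 M) k) (n : ℕ),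
    ModularFormClass.qCoeff (T p f) n =
      ModularFormClass.qCoeff f (p * n) +
        (p : ℂ) ^ (k - 1) * (if p ∣ n then
          ModularFormClass.qCoeff
            (diam (ZMod.unitOfCoprime p ((Nat.Prime.coprime_iff_not_dvd hp).mpr hpM)) f) (n / p)
          else 0)
  comm_T_T : ∀ p q : ℕ, p.Prime → q.Prime → ¬ p ∣ M → ¬ q ∣ M → Commute (T p) (T q)
  comm_T_diam : ∀ (p : ℕ) (d : (ZMod M)ˣ), p.Prime → ¬ p ∣ M → Commute (T p) (diam d)

namespace HeckeOps1

variable {M : ℕ} [NeZero M] {k : ℤ} (H : HeckeOps1 M k)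

/-- The generators of the Hecke algebra away from `S`: the `T_p`, `p ∤ M`, `p ∉ S`, and all
diamond operators. -/
def generators (S : Set ℕ) : Set (Module.End ℂ (CuspForm (Gamma1 M) k)) :=
  {t | ∃ p : ℕ, p.Prime ∧ ¬ p ∣ M ∧ p ∉ S ∧ t = H.T p} ∪ Set.range H.diam

/-- The Hecke algebra of `S_k(Γ₁(M))` away from `S` (with diamond operators). -/
def algebra (S : Set ℕ) : Subalgebra ℤ (Module.End ℂ (CuspForm (Gamma1 M) k)) :=
  Algebra.adjoin ℤ (H.generators S)

/-- `T_p` as an element of the Hecke algebra. -/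
def Tel (S : Set ℕ) {p : ℕ} (hp : p.Prime) (hpM : ¬ p ∣ M) (hpS : p ∉ S) : H.algebra S :=
  ⟨H.T p, Algebra.subset_adjoin (Or.inl ⟨p, hp, hpM, hpS, rfl⟩)⟩

/-- `⟨d⟩` as an element of the Hecke algebra. -/
def Del (S : Set ℕ) (d : (ZMod M)ˣ) : H.algebra S :=
  ⟨H.diam d, Algebra.subset_adjoin (Or.inr ⟨d, rfl⟩)⟩

end HeckeOps1

/-! ### G1 export: torsion of `J₁(M)` with Galois and Hecke actions -/

/-- Finite level torsion data for `J₁(M)`: the analogue of
`Fermat.Agent.Gateway.S31Red.TorsionHeckeData` with diamond operators.  `Mod n` is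
`J₁(M)(ℚ̄)[ℓ ^ n]`.

The Hecke ring `TT` is ABSTRACT: a commutative ring with named elements `Tel p`, `Del d`, acting on
the torsion modules and on weight two cusp forms (`toForms`, with `Tel p ↦ T_p`, `Del d ↦ ⟨d⟩`).
Two intended instances: `TT = H.algebra S` (the Hecke algebra of cusp forms; `faithful` then needs
the full Eichler-Shimura isomorphism), or `TT` = the subring of `End_ℤ Λ`,
`Λ = Hom(Γ^ab / parabolics, ℤ)`, generated by the cohomological Hecke and diamond operators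
(`faithful` holds by construction, `toForms` needs only equivariance + injectivity of the period
map).

The flag `diamInv` records the normalisation of the Hecke correspondence in the Eichler-Shimura
relation (`⟨p⟩` or `⟨p⟩⁻¹`); consumers handle both. -/
structure TorsionHeckeData1 {M : ℕ} [NeZero M] (H : HeckeOps1 M 2) (ℓ : ℕ) (S : Finset ℕ) :
    Type 1 where
  /-- the Hecke ring -/
  TT : Type
  [instCommRing : CommRing TT]
  /-- `T_p`; only meaningful for primes `p ∤ M`, `p ∉ S` -/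
  Tel : ℕ → TT
  /-- the diamond operators -/
  Del : (ZMod M)ˣ →* TT
  /-- the action on weight two cusp forms -/
  toForms : TT →+* Module.End ℂ (CuspForm (Gamma1 M) 2)
  toForms_Tel : ∀ p : ℕ, p.Prime → ¬ p ∣ M → p ∉ S → toForms (Tel p) = H.T p
  toForms_Del : ∀ d : (ZMod M)ˣ, toForms (Del d) = H.diam d
  /-- `TT` is generated by the `T_p` (`p ∤ M`, `p ∉ S`) and the diamond operators -/
  generated : Subring.closure ({t | ∃ p : ℕ, p.Prime ∧ ¬ p ∣ M ∧ p ∉ S ∧ t = Tel p} ∪
    Set.range Del) = ⊤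
  /-- the `ℓ ^ n`-torsion module -/
  Mod : ℕ → Type
  [instAddCommGroup : ∀ n, AddCommGroup (Mod n)]
  [instFinite : ∀ n, Finite (Mod n)]
  pow_smul : ∀ (n : ℕ) (x : Mod n), (ℓ ^ n) • x = 0
  /-- the Galois action -/
  gal : ∀ n, Γℚ →* AddMonoid.End (Mod n)
  gal_level : ∀ n, ∃ L : IntermediateField ℚ (AlgebraicClosure ℚ), FiniteDimensional ℚ L ∧
    ∀ σ : Γℚ, (∀ x ∈ L, σ x = x) → gal n σ = 1
  /-- the Hecke action -/
  hecke : ∀ n, TT →+* AddMonoid.End (Mod n)
  comm : ∀ (n : ℕ) (σ : Γℚ) (t : TT), Commute (gal n σ) (hecke n t)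
  /-- the sign of the exponent of the diamond operator in the Eichler-Shimura relation -/
  diamInv : Bool
  eichlerShimura : ∀ (n p : ℕ) (hp : p.Prime) (hpM : ¬ p ∣ M), p ∉ S →
    ∀ A : ValuationSubring (AlgebraicClosure ℚ), A.LiesOverPrime p →
    ∀ σ : Γℚ, A.IsFrobeniusAt σ p →
      gal n σ * gal n σ - hecke n (Tel p) * gal n σ
        + (p : AddMonoid.End (Mod n)) *
          hecke n (Del
            (if diamInv then
              (ZMod.unitOfCoprime p ((Nat.Prime.coprime_iff_not_dvd hp).mpr hpM))⁻¹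
            else ZMod.unitOfCoprime p ((Nat.Prime.coprime_iff_not_dvd hp).mpr hpM))) = 0
  unram : ∀ (n q : ℕ), q.Prime → q ∉ S → ∀ P : ValuationSubring (AlgebraicClosure ℚ),
    P.LiesOverPrime q → ∀ τ ∈ P.inertiaSubgroupIn ℚ, gal n τ = 1
  faithful : ∃ c0 : ℕ, ∀ (y : TT) (n : ℕ),
    hecke (n + c0) y = 0 → ∃ y' : TT, y = ((ℓ : ℤ) ^ n) • y'

attribute [instance] TorsionHeckeData1.instCommRing TorsionHeckeData1.instAddCommGroup
  TorsionHeckeData1.instFinite

/-! ### E-WP: the weight one Eisenstein series congruent to `1` -/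

/-- For the residue map `φ` of characteristic `ℓ`: a weight one modular form on `Γ₁(ℓ)` with
nebentypus `ψ ≡ ω⁻¹`, integral `q`-expansion, congruent to `1` modulo `ker φ`. -/
def EisensteinCongrOne (ℓ : ℕ) [NeZero ℓ] {k : Type} [Field k] (φ : Zbar →+* k) : Prop :=
  ∃ (ψ : DirichletCharacter ℂ ℓ) (E : ModularForm (Gamma1 ℓ) 1),
    (∀ γ : SL(2, ℤ), γ ∈ Gamma0 ℓ →
      (⇑E : UpperHalfPlane → ℂ) ∣[(1 : ℤ)] γ = ψ ((γ 1 1 : ℤ) : ZMod ℓ) • (⇑E : UpperHalfPlane → ℂ)) ∧
    (∀ d : (ZMod ℓ)ˣ, ∃ z : Zbar, (z : ℂ) = ψ d ∧ φ z * (((d : ZMod ℓ).val : ℕ) : k) = 1) ∧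
    ∀ n : ℕ, ∃ z : Zbar, (z : ℂ) = ModularFormClass.qCoeff E n ∧ φ z = if n = 0 then 1 else 0

/-! ### DS0: the arithmetic of the given weight one form -/

/-- `f` has nebentypus `ε`. -/
def HasNebentypus {N : ℕ} (ε : DirichletCharacter ℂ N) (f : CuspForm (Gamma1 N) 1) : Prop :=
  ∀ γ : SL(2, ℤ), γ ∈ Gamma0 N →
    (⇑f : UpperHalfPlane → ℂ) ∣[(1 : ℤ)] γ = ε ((γ 1 1 : ℤ) : ZMod N) • (⇑f : UpperHalfPlane → ℂ)

/-- An integral model of the eigen-system `(a_p)`: a nonzero form `h` of nebentypus `ε` with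
algebraic integer coefficients, eigenvector (in the formal sense of the frozen statement) of all
`T_p`, `p ∤ N`, with eigenvalues `a p`, whose coefficients are not all in the kernel of any residue
map of characteristic outside a finite set `B`.  (`h = D • f` works when `f` itself has bounded
denominators; in general `f` may have transcendental coefficients at indices not prime to `N`.) -/
def HasIntegralModel (N : ℕ) (ε : DirichletCharacter ℂ N) (a : ℕ → ℂ) : Prop :=
  ∃ h : CuspForm (Gamma1 N) 1, HasNebentypus ε h ∧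
    (∀ n : ℕ, IsIntegral ℤ (ModularFormClass.qCoeff h n)) ∧
    (∀ p : ℕ, p.Prime → ¬ p ∣ N → ∀ n : ℕ,
      ModularFormClass.qCoeff h (p * n) +
          ε (p : ZMod N) * (if p ∣ n then ModularFormClass.qCoeff h (n / p) else 0) =
        a p * ModularFormClass.qCoeff h n) ∧
    ∃ B : Finset ℕ, ∀ ℓ : ℕ, ℓ.Prime → ℓ ∉ B → ∀ (k : Type) [Field k] [CharP k ℓ]
      (φ : Zbar →+* k), ∃ (n : ℕ) (z : Zbar), (z : ℂ) = ModularFormClass.qCoeff h n ∧ φ z ≠ 0

/-! ### Output of DS2 -/

/-- Weak semisimplicity of a two-dimensional matrix representation (helper68's `hss`): every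
common eigenvector has an independent common eigenvector. -/
def WeaklySemisimple {G k : Type} [Group G] [Field k] (ρ : G →* GL (Fin 2) k) : Prop :=
  ∀ v : Fin 2 → k, v ≠ 0 →
    (∀ g : G, ∃ c : k, ((ρ g : GL (Fin 2) k) : Matrix (Fin 2) (Fin 2) k).mulVec v = c • v) →
    ∃ w : Fin 2 → k, (∀ c : k, w ≠ c • v) ∧
      ∀ g : G, ∃ c : k, ((ρ g : GL (Fin 2) k) : Matrix (Fin 2) (Fin 2) k).mulVec w = c • w

/-- The residual representation attached to `(a, ε)` at the residue map `φ`, over a finite field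
`k'` mapping to the target of `φ`: finite level, weakly semisimple, unramified at the primes not
dividing `bad`, with the prescribed trace and determinant of Frobenius there. -/
def ResidualRepAt (N : ℕ) (ε : DirichletCharacter ℂ N) (a : ℕ → ℂ) (bad : ℕ) {k : Type} [Field k]
    (φ : Zbar →+* k) : Prop :=
  ∃ (k' : Type) (_ : Field k') (_ : Finite k') (j : k' →+* k) (ρ : Γℚ →* GL (Fin 2) k'),
    GaloisFactorsThroughFiniteLevel ρ ∧ WeaklySemisimple ρ ∧
    ∀ p : ℕ, p.Prime → ¬ p ∣ bad →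
      ∀ A : ValuationSubring (AlgebraicClosure ℚ), A.LiesOverPrime p →
        (∀ σ ∈ A.inertiaSubgroupIn ℚ, ρ σ = 1) ∧
        ∀ σ : Γℚ, A.IsFrobeniusAt σ p →
          ∀ x y : Zbar, (x : ℂ) = a p → (y : ℂ) = ε (p : ZMod N) →
            j ((ρ σ : GL (Fin 2) k') : Matrix (Fin 2) (Fin 2) k').trace = φ x ∧
            j ((ρ σ : GL (Fin 2) k') : Matrix (Fin 2) (Fin 2) k').det = φ y

/-- **DS2**: residual representations exist at all residue maps of characteristic `ℓ ∉ B`, in two
versions: one good outside `2 N ℓ` (constructed at a level divisible by `4`) and one good outside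
`3 N ℓ` (level divisible by `9`).  The assembly glues them by comparing traces. -/
def ResidualRepsExist (N : ℕ) (ε : DirichletCharacter ℂ N) (a : ℕ → ℂ) : Prop :=
  ∃ B : Finset ℕ, ∀ ℓ : ℕ, ℓ.Prime → ℓ ∉ B → ∀ (k : Type) [Field k] [CharP k ℓ]
    (φ : Zbar →+* k), ResidualRepAt N ε a (2 * N * ℓ) φ ∧ ResidualRepAt N ε a (3 * N * ℓ) φ

end Fermat.Agent.S48x.DS2
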