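/-
P-S48 (Deligne-Serre), block DS2-top, glue between step 1 and step 2 (helper52): the product
`g = h * E` of the integral model `h` of the eigen-system and the weight one Eisenstein series
`E ≡ 1` is an integral weight two form on `Γ₁(M)` with character `χ = ε ψ`, congruent to `h`
modulo `ker φ`, and an eigenform modulo `ker φ` of the formal Hecke operators of weight two.
-/
import Mathlib
import Fermat.Agent.S48x.DS2.Contract
import Fermat.Agent.S48x.DS2.Product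

set_option autoImplicit false

open CongruenceSubgroup UpperHalfPlane
open scoped MatrixGroups ModularForm

namespace Fermat.Agent.S48x.DS2

local notation "Zbar" => integralClosure ℤ ℂ

/-! ### Elements of `Γ₀(M)` with prescribed lower right entry -/

theorem exists_mem_Gamma0_lowerRight (M : ℕ) [NeZero M] (d : (ZMod M)ˣ) :
    ∃ γ : SL(2, ℤ), γ ∈ Gamma0 M ∧ ((γ 1 1 : ℤ) : ZMod M) = d := by
  have hcop : Nat.Coprime (d : ZMod M).val M := ZMod.val_coe_unit_coprime d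
  have hcop' : IsCoprime (((d : ZMod M).val : ℕ) : ℤ) (M : ℤ) := Nat.isCoprime_iff_coprime.mpr hcop
  obtain ⟨a, b, hab⟩ := hcop'
  refine ⟨⟨!![a, -b; (M : ℤ), (((d : ZMod M).val : ℕ) : ℤ)], ?_⟩, ?_, ?_⟩
  · rw [Matrix.det_fin_two_of]; linarith
  · exact Gamma0_mem.mpr (by simp)
  · simp

theorem Gamma0_le_of_dvd {N M : ℕ} (h : N ∣ M) : Gamma0 M ≤ Gamma0 N := by
  intro A hA
  rw [Gamma0_mem] at hA ⊢
  rw [ZMod.intCast_zmod_eq_zero_iff_dvd] at hA ⊢
  exact dvd_trans (Int.natCast_dvd_natCast.mpr h) hA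

theorem intCast_castHom {N M : ℕ} (h : N ∣ M) (x : ℤ) :
    ZMod.castHom h (ZMod N) ((x : ℤ) : ZMod M) = ((x : ℤ) : ZMod N) :=
  map_intCast _ _

/-! ### Integrality of character values -/

theorem isIntegral_dirichlet {N : ℕ} [NeZero N] (ε : DirichletCharacter ℂ N) (x : ZMod N) :
    IsIntegral ℤ (ε x) := by
  by_cases hx : IsUnit x
  · obtain ⟨u, rfl⟩ := hx
    have h1 : (ε (u : ZMod N)) ^ (Nat.totient N) = 1 := by
      rw [← map_pow, ← Units.val_pow_eq_pow_val, ZMod.pow_totient, Units.val_one, map_one]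
    refine IsIntegral.of_pow (Nat.totient_pos.mpr (NeZero.pos N)) ?_
    rw [h1]
    exact isIntegral_one
  · rw [MulChar.map_nonunit ε hx]
    exact isIntegral_zero

/-! ### The diamond operators on the product -/

theorem diam_prodForm {N ℓ M : ℕ} [NeZero M] (hN : N ∣ M) (hℓ : ℓ ∣ M) (H : HeckeOps1 M 2)
    {ε : DirichletCharacter ℂ N} {ψ : DirichletCharacter ℂ ℓ}
    (f : CuspForm (Gamma1 N) 1) (hf : HasNebentypus ε f)
    (E : ModularForm (Gamma1 ℓ) 1)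
    (hE : ∀ γ : SL(2, ℤ), γ ∈ Gamma0 ℓ →
      (⇑E : ℍ → ℂ) ∣[(1 : ℤ)] γ = ψ ((γ 1 1 : ℤ) : ZMod ℓ) • (⇑E : ℍ → ℂ))
    (d : (ZMod M)ˣ) :
    H.diam d (prodForm hN hℓ f E) =
      (ε (ZMod.castHom hN (ZMod N) (d : ZMod M)) * ψ (ZMod.castHom hℓ (ZMod ℓ) (d : ZMod M))) •
        prodForm hN hℓ f E := by
  obtain ⟨γ, hγ, hγd⟩ := exists_mem_Gamma0_lowerRight M d
  apply DFunLike.coe_injective
  rw [H.diam_slash d γ hγ hγd]
  have h1 := hf γ (Gamma0_le_of_dvd hN hγ)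
  have h2 := hE γ (Gamma0_le_of_dvd hℓ hγ)
  rw [slash_prodForm hN hℓ f E γ _ _ h1 h2, ← hγd, intCast_castHom, intCast_castHom]
  rfl

/-! ### Coefficients of the product modulo `ker φ` -/

section Coeff

variable {N ℓ M : ℕ} (hN : N ∣ M) (hℓ : ℓ ∣ M)
  (f : CuspForm (Gamma1 N) 1) (E : ModularForm (Gamma1 ℓ) 1)

theorem isIntegral_qCoeff_prodForm
    (hf : ∀ n : ℕ, IsIntegral ℤ (ModularFormClass.qCoeff f n))
    (hE : ∀ n : ℕ, IsIntegral ℤ (ModularFormClass.qCoeff E n)) (n : ℕ) :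
    IsIntegral ℤ (ModularFormClass.qCoeff (prodForm hN hℓ f E) n) := by
  rw [qCoeff_prodForm]
  exact IsIntegral.sum _ fun p _ => (hf p.1).mul (hE p.2)

theorem phi_qCoeff_prodForm {k : Type} [Field k] (φ : Zbar →+* k)
    (fb eb gb : ℕ → Zbar)
    (hfb : ∀ n : ℕ, ((fb n : Zbar) : ℂ) = ModularFormClass.qCoeff f n)
    (heb : ∀ n : ℕ, ((eb n : Zbar) : ℂ) = ModularFormClass.qCoeff E n)
    (hgb : ∀ n : ℕ, ((gb n : Zbar) : ℂ) = ModularFormClass.qCoeff (prodForm hN hℓ f E) n)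
    (hφe : ∀ n : ℕ, φ (eb n) = if n = 0 then 1 else 0) (n : ℕ) :
    φ (gb n) = φ (fb n) := by
  have h1 : gb n = ∑ p ∈ Finset.HasAntidiagonal.antidiagonal n, fb p.1 * eb p.2 := by
    apply Subtype.ext
    rw [hgb, qCoeff_prodForm, AddSubmonoidClass.coe_finsetSum]
    refine Finset.sum_congr rfl fun p _ => ?_
    rw [MulMemClass.coe_mul, hfb, heb]
  rw [h1, map_sum]
  rw [Finset.sum_eq_single (n, 0)]
  · rw [map_mul, hφe 0, if_pos rfl, mul_one]
  · rintro ⟨i, j⟩ hij hne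
    rw [map_mul, hφe j]
    have hj : j ≠ 0 := by
      rintro rfl
      apply hne
      rw [Finset.HasAntidiagonal.mem_antidiagonal] at hij
      simp only [add_zero] at hij
      rw [hij]
    rw [if_neg hj, mul_zero]
  · intro h
    exact absurd (Finset.HasAntidiagonal.mem_antidiagonal.mpr (by simp)) h

end Coeff

/-- The character `χ = ε ψ` of the product, with values in `Zbar`. -/
noncomputable def chiProd {N ℓ M : ℕ} [NeZero N] [NeZero ℓ] (hN : N ∣ M) (hℓ : ℓ ∣ M)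
    (ε : DirichletCharacter ℂ N) (ψ : DirichletCharacter ℂ ℓ) : (ZMod M)ˣ →* Zbar where
  toFun d := ⟨ε (ZMod.castHom hN (ZMod N) (d : ZMod M)) * ψ (ZMod.castHom hℓ (ZMod ℓ) (d : ZMod M)),
    (isIntegral_dirichlet ε _).mul (isIntegral_dirichlet ψ _)⟩
  map_one' := by
    apply Subtype.ext
    simp only [Units.val_one, map_one, mul_one, OneMemClass.coe_one]
  map_mul' x y := by
    apply Subtype.ext
    simp only [Units.val_mul, map_mul, MulMemClass.coe_mul]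
    ring

@[simp] theorem coe_chiProd {N ℓ M : ℕ} [NeZero N] [NeZero ℓ] (hN : N ∣ M) (hℓ : ℓ ∣ M)
    (ε : DirichletCharacter ℂ N) (ψ : DirichletCharacter ℂ ℓ) (d : (ZMod M)ˣ) :
    ((chiProd hN hℓ ε ψ d : Zbar) : ℂ) =
      ε (ZMod.castHom hN (ZMod N) (d : ZMod M)) * ψ (ZMod.castHom hℓ (ZMod ℓ) (d : ZMod M)) :=
  rfl

/-- **Input of step 2**: the product `g = h E` is an integral form with character `χ`, nonzero
modulo `ker φ`, and an eigenform modulo `ker φ` with eigenvalues `φ (a p)`; moreover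
`p φ(χ p) = φ(ε p)`. -/
theorem exists_eigen_mod {N ℓ M : ℕ} [NeZero N] [NeZero ℓ] [NeZero M] (hN : N ∣ M) (hℓ : ℓ ∣ M)
    (H : HeckeOps1 M 2) {ε : DirichletCharacter ℂ N} {a : ℕ → ℂ}
    (ha : ∀ p : ℕ, p.Prime → ¬ p ∣ N → IsIntegral ℤ (a p))
    (h : CuspForm (Gamma1 N) 1) (hneb : HasNebentypus ε h)
    (hint : ∀ n : ℕ, IsIntegral ℤ (ModularFormClass.qCoeff h n))
    (heig : ∀ p : ℕ, p.Prime → ¬ p ∣ N → ∀ n : ℕ,
      ModularFormClass.qCoeff h (p * n) +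
          ε (p : ZMod N) * (if p ∣ n then ModularFormClass.qCoeff h (n / p) else 0) =
        a p * ModularFormClass.qCoeff h n)
    {k : Type} [Field k] [CharP k ℓ] (φ : Zbar →+* k)
    (hne : ∃ (n : ℕ) (z : Zbar), (z : ℂ) = ModularFormClass.qCoeff h n ∧ φ z ≠ 0)
    (hE : EisensteinCongrOne ℓ φ) :
    ∃ (χ : (ZMod M)ˣ →* Zbar) (g : CuspForm (Gamma1 M) 2) (b c : ℕ → Zbar),
      (∀ d : (ZMod M)ˣ, H.diam d g = ((χ d : Zbar) : ℂ) • g) ∧
      (∀ n : ℕ, ((b n : Zbar) : ℂ) = ModularFormClass.qCoeff g n) ∧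
      (∃ n : ℕ, φ (b n) ≠ 0) ∧
      (∀ (p : ℕ) (hp : p.Prime) (hpM : ¬ p ∣ M) (n : ℕ),
        φ (b (p * n)) + (p : k) *
            φ (χ (ZMod.unitOfCoprime p ((Nat.Prime.coprime_iff_not_dvd hp).mpr hpM))) *
            (if p ∣ n then φ (b (n / p)) else 0) = φ (c p) * φ (b n)) ∧
      (∀ p : ℕ, p.Prime → ¬ p ∣ N → ((c p : Zbar) : ℂ) = a p) ∧
      (∀ (p : ℕ) (hp : p.Prime) (hpM : ¬ p ∣ M) (y : Zbar), (y : ℂ) = ε (p : ZMod N) →
        (p : k) * φ (χ (ZMod.unitOfCoprime p ((Nat.Prime.coprime_iff_not_dvd hp).mpr hpM))) =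
          φ y) := by
  classical
  obtain ⟨ψ, E, hEslash, hψ, hEq⟩ := hE
  choose eb heb hφe using hEq
  let fb : ℕ → Zbar := fun n => ⟨ModularFormClass.qCoeff h n, hint n⟩
  have hfb : ∀ n : ℕ, ((fb n : Zbar) : ℂ) = ModularFormClass.qCoeff h n := fun _ => rfl
  have hEint : ∀ n : ℕ, IsIntegral ℤ (ModularFormClass.qCoeff E n) := fun n => by
    rw [← heb n]; exact (eb n).2
  let g : CuspForm (Gamma1 M) 2 := prodForm hN hℓ h E
  let gb : ℕ → Zbar := fun n =>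
    ⟨ModularFormClass.qCoeff g n, isIntegral_qCoeff_prodForm hN hℓ h E hint hEint n⟩
  have hgb : ∀ n : ℕ, ((gb n : Zbar) : ℂ) = ModularFormClass.qCoeff g n := fun _ => rfl
  have hφg : ∀ n : ℕ, φ (gb n) = φ (fb n) :=
    phi_qCoeff_prodForm hN hℓ h E φ fb eb gb hfb heb hgb hφe
  let c : ℕ → Zbar := fun p => if hp : p.Prime ∧ ¬ p ∣ N then ⟨a p, ha p hp.1 hp.2⟩ else 0
  have hc : ∀ p : ℕ, p.Prime → ¬ p ∣ N → ((c p : Zbar) : ℂ) = a p := fun p hp hpN => by
    simp only [c, dif_pos (And.intro hp hpN)]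
  -- the key congruence `p φ(χ p) = φ(ε p)`
  have hkey : ∀ (p : ℕ) (hp : p.Prime) (hpM : ¬ p ∣ M) (y : Zbar), (y : ℂ) = ε (p : ZMod N) →
      (p : k) * φ (chiProd hN hℓ ε ψ
        (ZMod.unitOfCoprime p ((Nat.Prime.coprime_iff_not_dvd hp).mpr hpM))) = φ y := by
    intro p hp hpM y hy
    have hpℓ : ¬ p ∣ ℓ := fun hdvd => hpM (dvd_trans hdvd hℓ)
    obtain ⟨z, hz, hz1⟩ := hψ (ZMod.unitOfCoprime p ((Nat.Prime.coprime_iff_not_dvd hp).mpr hpℓ))
    have hval : (((ZMod.unitOfCoprime p ((Nat.Prime.coprime_iff_not_dvd hp).mpr hpℓ) :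
        (ZMod ℓ)ˣ) : ZMod ℓ).val : k) = (p : k) := by
      rw [ZMod.coe_unitOfCoprime, ZMod.val_natCast]
      exact (CharP.natCast_eq_natCast_mod k ℓ p).symm
    rw [hval] at hz1
    have hχ : chiProd hN hℓ ε ψ
        (ZMod.unitOfCoprime p ((Nat.Prime.coprime_iff_not_dvd hp).mpr hpM)) = y * z := by
      apply Subtype.ext
      rw [coe_chiProd, MulMemClass.coe_mul, hy, hz, ZMod.coe_unitOfCoprime,
        map_natCast (ZMod.castHom hN (ZMod N)), map_natCast (ZMod.castHom hℓ (ZMod ℓ)),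
        ZMod.coe_unitOfCoprime]
    rw [hχ, map_mul, mul_comm (p : k), mul_assoc, hz1, mul_one]
  refine ⟨chiProd hN hℓ ε ψ, g, gb, c, ?_, hgb, ?_, ?_, hc, hkey⟩
  · intro d
    rw [coe_chiProd]
    exact diam_prodForm hN hℓ H h hneb E hEslash d
  · obtain ⟨n, z, hz, hz0⟩ := hne
    refine ⟨n, ?_⟩
    rw [hφg n]
    have : fb n = z := Subtype.ext (by rw [hfb, hz])
    rwa [this]
  · intro p hp hpM n
    have hpN : ¬ p ∣ N := fun hdvd => hpM (dvd_trans hdvd hN)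
    let εb : Zbar := ⟨ε (p : ZMod N), isIntegral_dirichlet ε _⟩
    have h1 : fb (p * n) + εb * (if p ∣ n then fb (n / p) else 0) = c p * fb n := by
      apply Subtype.ext
      have := heig p hp hpN n
      simp only [AddMemClass.coe_add, MulMemClass.coe_mul, hfb, hc p hp hpN]
      rw [← this]
      congr 2
      split_ifs <;> simp [hfb]
    have h2 := congrArg φ h1
    rw [map_add, map_mul, map_mul, apply_ite φ, map_zero] at h2
    rw [hφg, hφg, hφg, hkey p hp hpM εb rfl]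
    exact h2

end Fermat.Agent.S48x.DS2
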