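/-
P-S48 (Deligne-Serre), block DS2-top (helper52): assembly of `ResidualRepsExist` from
* the integral model of the eigen-system (DS0),
* the weight one Eisenstein series congruent to one (E-WP),
* the `Γ₁`-gateway export `TorsionHeckeData1` at the two levels `lcm(N,4) ℓ` and `lcm(N,9) ℓ` (G1),
* step 2 (`ThetabarStatement`, proved in `DS2/Thetabar.lean`) and steps 3-4
  (`WrapperStatement`, proved in `DS2/Wrapper.lean`), taken here as hypotheses so that this file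
  depends on the contracts only.
-/
import Mathlib
import Fermat.Agent.S48x.DS2.Contract
import Fermat.Agent.S48x.DS2.Glue

set_option autoImplicit false

open CongruenceSubgroup UpperHalfPlane
open scoped MatrixGroups ModularForm

namespace Fermat.Agent.S48x.DS2

local notation "Γℚ" => (AlgebraicClosure ℚ ≃ₐ[ℚ] AlgebraicClosure ℚ)
local notation "Zbar" => integralClosure ℤ ℂ

/-- The statement of step 2 (`exists_thetabar`). -/
def ThetabarStatement : Prop :=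
  ∀ (M ℓ : ℕ) [NeZero M] (H : HeckeOps1 M 2) (S : Finset ℕ)
    (D : TorsionHeckeData1 H ℓ S) (k : Type) [Field k] (φ : Zbar →+* k)
    (χ : (ZMod M)ˣ →* Zbar)
    (g : CuspForm (Gamma1 M) 2)
    (_ : ∀ d : (ZMod M)ˣ, H.diam d g = ((χ d : Zbar) : ℂ) • g)
    (b : ℕ → Zbar) (_ : ∀ n : ℕ, ((b n : Zbar) : ℂ) = ModularFormClass.qCoeff g n)
    (_ : ∃ n : ℕ, φ (b n) ≠ 0)
    (c : ℕ → Zbar)
    (_ : ∀ (p : ℕ) (hp : p.Prime) (hpM : ¬ p ∣ M), p ∉ S → ∀ n : ℕ,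
      φ (b (p * n)) + (p : k) *
          φ (χ (ZMod.unitOfCoprime p ((Nat.Prime.coprime_iff_not_dvd hp).mpr hpM))) *
          (if p ∣ n then φ (b (n / p)) else 0) = φ (c p) * φ (b n)),
    ∃ θ : D.TT →+* k,
      (∀ p : ℕ, p.Prime → ¬ p ∣ M → p ∉ S → θ (D.Tel p) = φ (c p)) ∧
      ∀ d : (ZMod M)ˣ, θ (D.Del d) = φ (χ d)

/-- The statement of steps 3-4 (`residualRep_of_thetabar`). -/
def WrapperStatement : Prop :=
  ∀ (M ℓ : ℕ) [NeZero M] (_ : ℓ.Prime) (_ : ℓ ≠ 2) (_ : ℓ ∣ M) (H : HeckeOps1 M 2)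
    (S : Finset ℕ) (D : TorsionHeckeData1 H ℓ S) (_ : D.diamInv = false)
    (k : Type) [Field k] [CharP k ℓ] (θ : D.TT →+* k),
    ∃ (k' : Type) (_ : Field k') (_ : Finite k') (j : k' →+* k) (ρ : Γℚ →* GL (Fin 2) k'),
      GaloisFactorsThroughFiniteLevel ρ ∧ WeaklySemisimple ρ ∧
      ∀ (p : ℕ) (hp : p.Prime) (hpM : ¬ p ∣ M), p ∉ S →
        ∀ A : ValuationSubring (AlgebraicClosure ℚ), A.LiesOverPrime p →
          (∀ σ ∈ A.inertiaSubgroupIn ℚ, ρ σ = 1) ∧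
          ∀ σ : Γℚ, A.IsFrobeniusAt σ p →
            j ((ρ σ : GL (Fin 2) k') : Matrix (Fin 2) (Fin 2) k').trace = θ (D.Tel p) ∧
            j ((ρ σ : GL (Fin 2) k') : Matrix (Fin 2) (Fin 2) k').det =
              (p : k) * θ (D.Del
                (ZMod.unitOfCoprime p ((Nat.Prime.coprime_iff_not_dvd hp).mpr hpM)))

/-- The residual representation at one level `M` (divisible by `N` and `ℓ`). -/
theorem residualRepAt_of_level (hΘ : ThetabarStatement) (hW : WrapperStatement)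
    {N : ℕ} [NeZero N] {ε : DirichletCharacter ℂ N} {a : ℕ → ℂ}
    (ha : ∀ p : ℕ, p.Prime → ¬ p ∣ N → IsIntegral ℤ (a p))
    (h : CuspForm (Gamma1 N) 1) (hneb : HasNebentypus ε h)
    (hint : ∀ n : ℕ, IsIntegral ℤ (ModularFormClass.qCoeff h n))
    (heig : ∀ p : ℕ, p.Prime → ¬ p ∣ N → ∀ n : ℕ,
      ModularFormClass.qCoeff h (p * n) +
          ε (p : ZMod N) * (if p ∣ n then ModularFormClass.qCoeff h (n / p) else 0) =
        a p * ModularFormClass.qCoeff h n)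
    {ℓ : ℕ} [NeZero ℓ] (hℓ : ℓ.Prime) (hℓ2 : ℓ ≠ 2) {k : Type} [Field k] [CharP k ℓ]
    (φ : Zbar →+* k)
    (hne : ∃ (n : ℕ) (z : Zbar), (z : ℂ) = ModularFormClass.qCoeff h n ∧ φ z ≠ 0)
    (hE : EisensteinCongrOne ℓ φ)
    {M : ℕ} [NeZero M] (hN : N ∣ M) (hℓM : ℓ ∣ M)
    (H : HeckeOps1 M 2) (D : TorsionHeckeData1 H ℓ M.primeFactors) (hD : D.diamInv = false)
    (bad : ℕ) (hbad : ∀ p : ℕ, p.Prime → ¬ p ∣ bad → ¬ p ∣ M) :
    ResidualRepAt N ε a bad φ := by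
  obtain ⟨χ, g, b, c, hgχ, hb, hbne, hbeig, hc, hkey⟩ :=
    exists_eigen_mod hN hℓM H ha h hneb hint heig φ hne hE
  obtain ⟨θ, hθT, hθD⟩ := hΘ M ℓ H M.primeFactors D k φ χ g hgχ b hb hbne c
    (fun p hp hpM _ n => hbeig p hp hpM n)
  obtain ⟨k', instF, instFin, j, ρ, hfl, hss, hρ⟩ := hW M ℓ hℓ hℓ2 hℓM H M.primeFactors D hD k θ
  refine ⟨k', instF, instFin, j, ρ, hfl, hss, ?_⟩
  intro p hp hpbad A hA
  have hpM : ¬ p ∣ M := hbad p hp hpbad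
  have hpS : p ∉ M.primeFactors := fun hmem => hpM (Nat.dvd_of_mem_primeFactors hmem)
  have hpN : ¬ p ∣ N := fun hdvd => hpM (dvd_trans hdvd hN)
  obtain ⟨hin, hfrob⟩ := hρ p hp hpM hpS A hA
  refine ⟨hin, ?_⟩
  intro σ hσ x y hx hy
  obtain ⟨htr, hdet⟩ := hfrob σ hσ
  refine ⟨?_, ?_⟩
  · rw [htr, hθT p hp hpM hpS]
    congr 1
    exact Subtype.ext (by rw [hc p hp hpN, hx])
  · rw [hdet, hθD]
    exact hkey p hp hpM y hy

/-- **DS2** from its inputs. -/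
theorem residualRepsExist_of_inputs (hΘ : ThetabarStatement) (hW : WrapperStatement)
    {N : ℕ} [NeZero N] (ε : DirichletCharacter ℂ N) (a : ℕ → ℂ)
    (hmodel : HasIntegralModel N ε a)
    (ha : ∀ p : ℕ, p.Prime → ¬ p ∣ N → IsIntegral ℤ (a p))
    (hEis : ∀ (ℓ : ℕ) [NeZero ℓ], ℓ.Prime → ℓ ≠ 2 → ∀ (k : Type) [Field k] [CharP k ℓ]
      (φ : Zbar →+* k), EisensteinCongrOne ℓ φ)
    (hG1 : ∀ (M ℓ : ℕ) [NeZero M], ℓ.Prime → ℓ ∣ M → (4 ∣ M ∨ 9 ∣ M) →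
      ∃ (H : HeckeOps1 M 2) (D : TorsionHeckeData1 H ℓ M.primeFactors), D.diamInv = false) :
    ResidualRepsExist N ε a := by
  classical
  obtain ⟨h, hneb, hint, heig, B, hB⟩ := hmodel
  refine ⟨insert 2 B, ?_⟩
  intro ℓ hℓ hℓB k _ _ φ
  have hℓ2 : ℓ ≠ 2 := fun h2 => hℓB (by rw [h2]; exact Finset.mem_insert_self _ _)
  have hℓB' : ℓ ∉ B := fun hmem => hℓB (Finset.mem_insert_of_mem hmem)
  have : NeZero ℓ := ⟨hℓ.ne_zero⟩
  have hne := hB ℓ hℓ hℓB' k φ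
  have hE := hEis ℓ hℓ hℓ2 k φ
  have hN0 : N ≠ 0 := NeZero.ne N
  -- a prime dividing `lcm N c * ℓ` divides `N`, `c` or `ℓ`
  have hdiv : ∀ (c p : ℕ), p.Prime → p ∣ Nat.lcm N c * ℓ → p ∣ N ∨ p ∣ c ∨ p ∣ ℓ := by
    intro c p hp hdvd
    rcases (Nat.Prime.dvd_mul hp).mp hdvd with h1 | h1
    · have h2 : p ∣ N * c := dvd_trans h1 (Nat.lcm_dvd_mul N c)
      rcases (Nat.Prime.dvd_mul hp).mp h2 with h3 | h3
      · exact Or.inl h3
      · exact Or.inr (Or.inl h3)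
    · exact Or.inr (Or.inr h1)
  refine ⟨?_, ?_⟩
  · -- level `lcm(N,4) ℓ`
    have : NeZero (Nat.lcm N 4 * ℓ) :=
      ⟨Nat.mul_ne_zero (Nat.lcm_ne_zero hN0 (by norm_num)) hℓ.ne_zero⟩
    obtain ⟨H, D, hD⟩ := hG1 (Nat.lcm N 4 * ℓ) ℓ hℓ (Dvd.intro_left _ rfl)
      (Or.inl (dvd_mul_of_dvd_left (Nat.dvd_lcm_right N 4) ℓ))
    refine residualRepAt_of_level hΘ hW ha h hneb hint heig hℓ hℓ2 φ hne hE
      (dvd_mul_of_dvd_left (Nat.dvd_lcm_left N 4) ℓ) (Dvd.intro_left _ rfl) H D hD _ ?_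
    intro p hp hpbad hpM
    apply hpbad
    rcases hdiv 4 p hp hpM with h1 | h1 | h1
    · exact dvd_mul_of_dvd_left (dvd_mul_of_dvd_right h1 2) ℓ
    · have h2 : p ∣ 2 := by
        have : p ∣ 2 ^ 2 := by norm_num; exact h1
        exact hp.dvd_of_dvd_pow this
      exact dvd_mul_of_dvd_left (dvd_mul_of_dvd_left h2 N) ℓ
    · exact dvd_mul_of_dvd_right h1 _
  · -- level `lcm(N,9) ℓ`
    have : NeZero (Nat.lcm N 9 * ℓ) :=
      ⟨Nat.mul_ne_zero (Nat.lcm_ne_zero hN0 (by norm_num)) hℓ.ne_zero⟩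
    obtain ⟨H, D, hD⟩ := hG1 (Nat.lcm N 9 * ℓ) ℓ hℓ (Dvd.intro_left _ rfl)
      (Or.inr (dvd_mul_of_dvd_left (Nat.dvd_lcm_right N 9) ℓ))
    refine residualRepAt_of_level hΘ hW ha h hneb hint heig hℓ hℓ2 φ hne hE
      (dvd_mul_of_dvd_left (Nat.dvd_lcm_left N 9) ℓ) (Dvd.intro_left _ rfl) H D hD _ ?_
    intro p hp hpbad hpM
    apply hpbad
    rcases hdiv 9 p hp hpM with h1 | h1 | h1
    · exact dvd_mul_of_dvd_left (dvd_mul_of_dvd_right h1 3) ℓ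
    · have h2 : p ∣ 3 := by
        have : p ∣ 3 ^ 2 := by norm_num; exact h1
        exact hp.dvd_of_dvd_pow this
      exact dvd_mul_of_dvd_left (dvd_mul_of_dvd_left h2 N) ℓ
    · exact dvd_mul_of_dvd_right h1 _

end Fermat.Agent.S48x.DS2
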