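/-
P-S48 (Deligne-Serre), block DS2, STEP 2 (helper35): the character `θ̄ : TT → k` of the Hecke
ring attached to a form which is an eigenform modulo `ker φ`.

`g` is a weight two cusp form on `Γ₁(M)` with character `χ` and algebraic integer coefficients
`b n`, not all in `ker φ`, which is an eigenvector of the `T_p` modulo `ker φ` (eigenvalues
`φ (c p)`).  Then there is a ring homomorphism `θ : TT → k` with `θ (T_p) = φ (c p)` and
`θ ⟨d⟩ = φ (χ d)`.  No lifting lemma and no finiteness is used: only that the set of `t ∈ TT`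
acting by a scalar on the reductions of the integral forms with character `χ` whose reduction is a
multiple of the reduction of `g` is a subring containing the generators.
-/
import Mathlib
import Fermat.Agent.S48x.DS2.Contract

set_option autoImplicit false
set_option linter.unusedSectionVars false

open CongruenceSubgroup UpperHalfPlane
open scoped MatrixGroups ModularForm

namespace Fermat.Agent.S48x.DS2

local notation "Zbar" => integralClosure ℤ ℂ

namespace Thetabar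

/-! ### `q`-coefficients are linear -/

section QCoeff

variable {M : ℕ} {w : ℤ}

theorem one_mem_strictPeriods (M : ℕ) :
    (1 : ℝ) ∈ ((Gamma1 M : Subgroup SL(2, ℤ)) : Subgroup (GL (Fin 2) ℝ)).strictPeriods := by
  simp [CongruenceSubgroup.strictPeriods_Gamma1]

theorem qCoeff_add (f g : CuspForm (Gamma1 M) w) (n : ℕ) :
    ModularFormClass.qCoeff (⇑(f + g)) n =
      ModularFormClass.qCoeff (⇑f) n + ModularFormClass.qCoeff (⇑g) n := by
  have h1 : (⇑(f + g) : ℍ → ℂ) = ⇑f + ⇑g := rfl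
  unfold ModularFormClass.qCoeff
  rw [h1, ModularForm.qExpansion_add one_pos (one_mem_strictPeriods M) f g, map_add]

theorem qCoeff_smul (a : ℂ) (f : CuspForm (Gamma1 M) w) (n : ℕ) :
    ModularFormClass.qCoeff (⇑(a • f)) n = a * ModularFormClass.qCoeff (⇑f) n := by
  have h1 : (⇑(a • f) : ℍ → ℂ) = a • ⇑f := rfl
  unfold ModularFormClass.qCoeff
  rw [h1, ModularForm.qExpansion_smul one_pos (one_mem_strictPeriods M) a f]
  simp

theorem qCoeff_zero (n : ℕ) :
    ModularFormClass.qCoeff (⇑(0 : CuspForm (Gamma1 M) w)) n = 0 := by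
  have h := qCoeff_smul (0 : ℂ) (0 : CuspForm (Gamma1 M) w) n
  rwa [zero_smul, zero_mul] at h

theorem qCoeff_neg (f : CuspForm (Gamma1 M) w) (n : ℕ) :
    ModularFormClass.qCoeff (⇑(-f)) n = -ModularFormClass.qCoeff (⇑f) n := by
  have h := qCoeff_smul (-1 : ℂ) f n
  rwa [neg_one_smul, neg_one_mul] at h

end QCoeff

/-! ### Integral forms and their reductions -/

section Red

variable {M : ℕ} {k : Type} [Field k] (φ : Zbar →+* k)

/-- `x` has algebraic integer `q`-coefficients, with reduction `ρ` under `φ`. -/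
def Red (x : CuspForm (Gamma1 M) 2) (ρ : ℕ → k) : Prop :=
  ∀ n : ℕ, ∃ z : Zbar, (z : ℂ) = ModularFormClass.qCoeff (⇑x) n ∧ φ z = ρ n

variable {φ}

theorem Red.unique {x : CuspForm (Gamma1 M) 2} {ρ σ : ℕ → k} (h₁ : Red φ x ρ) (h₂ : Red φ x σ) :
    ρ = σ := by
  funext n
  obtain ⟨z₁, hz₁, hρ⟩ := h₁ n
  obtain ⟨z₂, hz₂, hσ⟩ := h₂ n
  have : z₁ = z₂ := Subtype.ext (hz₁.trans hz₂.symm)
  rw [← hρ, ← hσ, this]

theorem Red.zero : Red φ (0 : CuspForm (Gamma1 M) 2) (0 : ℕ → k) := fun n =>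
  ⟨0, by rw [qCoeff_zero]; rfl, by simp⟩

theorem Red.add {x y : CuspForm (Gamma1 M) 2} {ρ σ : ℕ → k} (h₁ : Red φ x ρ) (h₂ : Red φ y σ) :
    Red φ (x + y) (ρ + σ) := by
  intro n
  obtain ⟨z₁, hz₁, hρ⟩ := h₁ n
  obtain ⟨z₂, hz₂, hσ⟩ := h₂ n
  refine ⟨z₁ + z₂, ?_, ?_⟩
  · rw [qCoeff_add, ← hz₁, ← hz₂]
    rfl
  · rw [map_add, hρ, hσ]
    rfl

theorem Red.neg {x : CuspForm (Gamma1 M) 2} {ρ : ℕ → k} (h : Red φ x ρ) : Red φ (-x) (-ρ) := by
  intro n
  obtain ⟨z, hz, hρ⟩ := h n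
  refine ⟨-z, ?_, ?_⟩
  · rw [qCoeff_neg, ← hz]
    rfl
  · rw [map_neg, hρ]
    rfl

theorem Red.smul {x : CuspForm (Gamma1 M) 2} {ρ : ℕ → k} (h : Red φ x ρ) (a : Zbar) :
    Red φ (((a : Zbar) : ℂ) • x) (φ a • ρ) := by
  intro n
  obtain ⟨z, hz, hρ⟩ := h n
  refine ⟨a * z, ?_, ?_⟩
  · rw [qCoeff_smul, ← hz]
    rfl
  · rw [map_mul, hρ]
    rfl

theorem Red.congr {x : CuspForm (Gamma1 M) 2} {ρ σ : ℕ → k} (h : Red φ x ρ) (hρσ : ρ = σ) :
    Red φ x σ := hρσ ▸ h

end Red

/-! ### Forms with character `χ` -/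

section Char

variable {M : ℕ} [NeZero M] (H : HeckeOps1 M 2) (χ : (ZMod M)ˣ →* Zbar)

/-- `x` has character `χ` for the diamond operators. -/
def HasChar (x : CuspForm (Gamma1 M) 2) : Prop :=
  ∀ d : (ZMod M)ˣ, H.diam d x = ((χ d : Zbar) : ℂ) • x

variable {H χ}

theorem HasChar.zero : HasChar H χ 0 := fun d => by rw [map_zero, smul_zero]

theorem HasChar.add {x y : CuspForm (Gamma1 M) 2} (hx : HasChar H χ x) (hy : HasChar H χ y) :
    HasChar H χ (x + y) := fun d => by rw [map_add, hx d, hy d, smul_add]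

theorem HasChar.neg {x : CuspForm (Gamma1 M) 2} (hx : HasChar H χ x) : HasChar H χ (-x) :=
  fun d => by rw [map_neg, hx d, smul_neg]

theorem HasChar.smul {x : CuspForm (Gamma1 M) 2} (hx : HasChar H χ x) (a : ℂ) :
    HasChar H χ (a • x) := fun d => by rw [map_smul, hx d, smul_comm]

end Char

/-! ### The scalar action on reductions -/

section Main

variable {M ℓ : ℕ} [NeZero M] (H : HeckeOps1 M 2) {S : Finset ℕ}
  (D : TorsionHeckeData1 H ℓ S) {k : Type} [Field k] (φ : Zbar →+* k)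
  (χ : (ZMod M)ˣ →* Zbar) (r : ℕ → k)

/-- `t` acts by the scalar `a` on the reductions of the integral forms with character `χ` whose
reduction is a multiple of `r`. -/
def Acts (t : D.TT) (a : k) : Prop :=
  ∀ (x : CuspForm (Gamma1 M) 2) (lam : k), HasChar H χ x → Red φ x (lam • r) →
    HasChar H χ (D.toForms t x) ∧ Red φ (D.toForms t x) ((a * lam) • r)

variable {H D φ χ r}

theorem acts_zero : Acts H D φ χ r 0 0 := by
  intro x lam _ _
  rw [map_zero, LinearMap.zero_apply]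
  refine ⟨HasChar.zero, Red.zero.congr ?_⟩
  rw [zero_mul, zero_smul]

theorem acts_one : Acts H D φ χ r 1 1 := by
  intro x lam hx hr
  rw [map_one, Module.End.one_apply, one_mul]
  exact ⟨hx, hr⟩

theorem Acts.add {t t' : D.TT} {a a' : k} (h : Acts H D φ χ r t a) (h' : Acts H D φ χ r t' a') :
    Acts H D φ χ r (t + t') (a + a') := by
  intro x lam hx hr
  obtain ⟨h1, h2⟩ := h x lam hx hr
  obtain ⟨h1', h2'⟩ := h' x lam hx hr
  rw [map_add, LinearMap.add_apply]
  refine ⟨h1.add h1', (h2.add h2').congr ?_⟩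
  rw [add_mul, add_smul]

theorem Acts.neg {t : D.TT} {a : k} (h : Acts H D φ χ r t a) : Acts H D φ χ r (-t) (-a) := by
  intro x lam hx hr
  obtain ⟨h1, h2⟩ := h x lam hx hr
  rw [map_neg, LinearMap.neg_apply]
  refine ⟨h1.neg, h2.neg.congr ?_⟩
  funext n
  simp

theorem Acts.mul {t t' : D.TT} {a a' : k} (h : Acts H D φ χ r t a) (h' : Acts H D φ χ r t' a') :
    Acts H D φ χ r (t * t') (a * a') := by
  intro x lam hx hr
  obtain ⟨h1', h2'⟩ := h' x lam hx hr
  obtain ⟨h1, h2⟩ := h _ (a' * lam) h1' h2'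
  rw [map_mul, Module.End.mul_apply]
  refine ⟨h1, h2.congr ?_⟩
  rw [mul_assoc]

/-- The diamond operators act through `φ ∘ χ`. -/
theorem acts_Del (d : (ZMod M)ˣ) : Acts H D φ χ r (D.Del d) (φ (χ d)) := by
  intro x lam hx hr
  rw [D.toForms_Del, hx d]
  refine ⟨hx.smul _, (hr.smul (χ d)).congr ?_⟩
  rw [smul_smul]

/-- The Hecke operators act through the eigenvalues of `r`. -/
theorem acts_Tel {p : ℕ} (hp : p.Prime) (hpM : ¬ p ∣ M) (hpS : p ∉ S) (cp : k)
    (heig : ∀ n : ℕ, r (p * n) + (p : k) *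
        φ (χ (ZMod.unitOfCoprime p ((Nat.Prime.coprime_iff_not_dvd hp).mpr hpM))) *
        (if p ∣ n then r (n / p) else 0) = cp * r n) :
    Acts H D φ χ r (D.Tel p) cp := by
  intro x lam hx hr
  rw [D.toForms_Tel p hp hpM hpS]
  constructor
  · intro d
    have h1 : H.diam d (H.T p x) = H.T p (H.diam d x) := by
      have h2 := (H.comm_T_diam p d hp hpM).eq
      have h3 := congrArg (fun F : Module.End ℂ (CuspForm (Gamma1 M) 2) => F x) h2
      simp only [Module.End.mul_apply] at h3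
      exact h3.symm
    rw [h1, hx d, map_smul]
  · intro n
    obtain ⟨z₁, hz₁, hρ₁⟩ := hr (p * n)
    obtain ⟨z₂, hz₂, hρ₂⟩ := hr (n / p)
    set u := ZMod.unitOfCoprime p ((Nat.Prime.coprime_iff_not_dvd hp).mpr hpM) with hu
    refine ⟨z₁ + (p : Zbar) * (if p ∣ n then χ u * z₂ else 0), ?_, ?_⟩
    · rw [H.qCoeff_T p hp hpM x n, ← hu, hx u, qCoeff_smul, ← hz₁, ← hz₂]
      have h2 : ((2 : ℤ) - 1) = 1 := by norm_num
      rw [h2, zpow_one]
      split_ifs <;> simp
    · rw [map_add, map_mul, map_natCast, hρ₁]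
      have h3 : φ (if p ∣ n then χ u * z₂ else 0) =
          if p ∣ n then φ (χ u) * (lam * r (n / p)) else 0 := by
        split_ifs
        · rw [map_mul, hρ₂]
          rfl
        · rw [map_zero]
      rw [h3]
      have h4 := heig n
      simp only [Pi.smul_apply, smul_eq_mul]
      have h5 : cp * lam * r n = lam * (cp * r n) := by ring
      rw [h5, ← h4]
      split_ifs <;> ring

end Main

end Thetabar

open Thetabar in
/-- **DS2, STEP 2**: the character of the Hecke ring attached to an eigenform modulo `ker φ`. -/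
theorem exists_thetabar {M ℓ : ℕ} [NeZero M] (H : HeckeOps1 M 2) {S : Finset ℕ}
    (D : TorsionHeckeData1 H ℓ S) {k : Type} [Field k] (φ : Zbar →+* k)
    (χ : (ZMod M)ˣ →* Zbar)
    (g : CuspForm (Gamma1 M) 2)
    (hgχ : ∀ d : (ZMod M)ˣ, H.diam d g = ((χ d : Zbar) : ℂ) • g)
    (b : ℕ → Zbar) (hb : ∀ n : ℕ, ((b n : Zbar) : ℂ) = ModularFormClass.qCoeff g n)
    (hne : ∃ n : ℕ, φ (b n) ≠ 0)
    (c : ℕ → Zbar)
    (heig : ∀ (p : ℕ) (hp : p.Prime) (hpM : ¬ p ∣ M), p ∉ S → ∀ n : ℕ,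
      φ (b (p * n)) + (p : k) *
          φ (χ (ZMod.unitOfCoprime p ((Nat.Prime.coprime_iff_not_dvd hp).mpr hpM))) *
          (if p ∣ n then φ (b (n / p)) else 0) = φ (c p) * φ (b n)) :
    ∃ θ : D.TT →+* k,
      (∀ p : ℕ, p.Prime → ¬ p ∣ M → p ∉ S → θ (D.Tel p) = φ (c p)) ∧
      ∀ d : (ZMod M)ˣ, θ (D.Del d) = φ (χ d) := by
  classical
  set r : ℕ → k := fun n => φ (b n) with hr
  have hgr : Red φ g r := fun n => ⟨b n, hb n, rfl⟩
  -- uniqueness of the scalar
  have huniq : ∀ {t : D.TT} {a a' : k}, Acts H D φ χ r t a → Acts H D φ χ r t a' → a = a' := by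
    intro t a a' h h'
    have hg1 : Red φ g ((1 : k) • r) := hgr.congr (one_smul _ _).symm
    obtain ⟨-, h2⟩ := h g 1 hgχ hg1
    obtain ⟨-, h2'⟩ := h' g 1 hgχ hg1
    have h3 := h2.unique h2'
    obtain ⟨n, hn⟩ := hne
    have h4 := congrFun h3 n
    simp only [Pi.smul_apply, smul_eq_mul, mul_one] at h4
    exact mul_right_cancel₀ hn h4
  -- existence of the scalar
  have hex : ∀ t : D.TT, ∃ a : k, Acts H D φ χ r t a := by
    intro t
    have ht : t ∈ Subring.closure ({t | ∃ p : ℕ, p.Prime ∧ ¬ p ∣ M ∧ p ∉ S ∧ t = D.Tel p} ∪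
        Set.range D.Del) := by
      rw [D.generated]
      trivial
    induction ht using Subring.closure_induction with
    | mem x hx =>
      rcases hx with ⟨p, hp, hpM, hpS, rfl⟩ | ⟨d, rfl⟩
      · exact ⟨φ (c p), acts_Tel hp hpM hpS _ (heig p hp hpM hpS)⟩
      · exact ⟨φ (χ d), acts_Del d⟩
    | zero => exact ⟨0, acts_zero⟩
    | one => exact ⟨1, acts_one⟩
    | add x y _ _ hx hy =>
      obtain ⟨a, ha⟩ := hx
      obtain ⟨a', ha'⟩ := hy
      exact ⟨a + a', ha.add ha'⟩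
    | neg x _ hx =>
      obtain ⟨a, ha⟩ := hx
      exact ⟨-a, ha.neg⟩
    | mul x y _ _ hx hy =>
      obtain ⟨a, ha⟩ := hx
      obtain ⟨a', ha'⟩ := hy
      exact ⟨a * a', ha.mul ha'⟩
  choose θ hθ using hex
  refine ⟨{ toFun := θ
            map_one' := huniq (hθ 1) acts_one
            map_mul' := fun t t' => huniq (hθ (t * t')) ((hθ t).mul (hθ t'))
            map_zero' := huniq (hθ 0) acts_zero
            map_add' := fun t t' => huniq (hθ (t + t')) ((hθ t).add (hθ t')) }, ?_, ?_⟩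
  · intro p hp hpM hpS
    exact huniq (hθ (D.Tel p)) (acts_Tel hp hpM hpS _ (heig p hp hpM hpS))
  · intro d
    exact huniq (hθ (D.Del d)) (acts_Del d)

end Fermat.Agent.S48x.DS2
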