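/-
P-S48 (Deligne–Serre), block DS2, STEPS 3–4 wrapper (helper78).

`residualRep_of_thetabar`: for a torsion datum `D : TorsionHeckeData1 H ℓ S` of `J₁(M)`, `ℓ ∣ M`,
`ℓ ≠ 2`, with the normalisation `D.diamInv = false`, and a ring homomorphism `θ : D.TT →+* k` to a
field of characteristic `ℓ`, there is a finite field `k' = D.TT ⧸ ker θ`, embedded in `k` by the
map `j` induced by `θ`, and a weakly semisimple `ρ : Γℚ →* GL₂(k')` of finite level, unramified at
all `p ∤ M`, `p ∉ S`, with `j (trace ρ(Frob_p)) = θ(T_p)`, `j (det ρ(Frob_p)) = p θ(⟨p⟩)`.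

Proof: `Extract/Torsion.exists_rep_of_torsionHeckeData1` over the algebraic closure of `k`,
followed by the descent to `k'` (`Lift/Realise.exists_realisation`, helper15): all traces and
determinants lie in the image of `D.TT`.
-/
import Fermat.Agent.S48x.Extract.Torsion
import Fermat.Agent.S48x.Lift.Realise

set_option autoImplicit false
set_option linter.style.haveILetI false

namespace Fermat.Agent.S48x.DS2

local notation "Γℚ" => (AlgebraicClosure ℚ ≃ₐ[ℚ] AlgebraicClosure ℚ)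

/-- In a field of odd prime characteristic, `2 ≠ 0`. -/
theorem two_ne_zero_of_charP {ℓ : ℕ} (hℓ : ℓ.Prime) (hℓ2 : ℓ ≠ 2) (k : Type*) [Field k]
    [CharP k ℓ] : (2 : k) ≠ 0 := by
  intro h
  have h' : ((2 : ℕ) : k) = 0 := by exact_mod_cast h
  rw [CharP.cast_eq_zero_iff k ℓ 2] at h'
  exact hℓ2 ((Nat.prime_dvd_prime_iff_eq hℓ Nat.prime_two).mp h')

/-- **STEPS 3–4 of DS2-top, over a finite field**: the residual representation attached to
`θ : D.TT →+* k`. -/
theorem residualRep_of_thetabar {M ℓ : ℕ} [NeZero M] (hℓ : ℓ.Prime) (hℓ2 : ℓ ≠ 2) (hℓM : ℓ ∣ M)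
    (H : HeckeOps1 M 2) {S : Finset ℕ} (D : TorsionHeckeData1 H ℓ S) (hD : D.diamInv = false)
    {k : Type} [Field k] [CharP k ℓ] (θ : D.TT →+* k) :
    ∃ (k' : Type) (_ : Field k') (_ : Finite k') (j : k' →+* k) (ρ : Γℚ →* GL (Fin 2) k'),
      GaloisFactorsThroughFiniteLevel ρ ∧ WeaklySemisimple ρ ∧
      ∀ (p : ℕ) (hp : p.Prime) (hpM : ¬ p ∣ M), p ∉ S →
        ∀ A : ValuationSubring (AlgebraicClosure ℚ), A.LiesOverPrime p →
          (∀ σ ∈ A.inertiaSubgroupIn ℚ, ρ σ = 1) ∧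
          ∀ σ : Γℚ, A.IsFrobeniusAt σ p →
            j ((ρ σ : GL (Fin 2) k') : Matrix (Fin 2) (Fin 2) k').trace = θ (D.Tel p) ∧
            j ((ρ σ : GL (Fin 2) k') : Matrix (Fin 2) (Fin 2) k').det =
              (p : k) * θ (D.Del
                (ZMod.unitOfCoprime p ((Nat.Prime.coprime_iff_not_dvd hp).mpr hpM))) := by
  classical
  have h2K : (2 : AlgebraicClosure k) ≠ 0 := by
    intro h
    apply two_ne_zero_of_charP hℓ hℓ2 k
    apply (algebraMap k (AlgebraicClosure k)).injective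
    rw [map_ofNat, h, map_zero]
  obtain ⟨hmax, hfin, r, hlev, hss, hfrob, htr, hdet⟩ :=
    Fermat.Agent.S48x.Extract.exists_rep_of_torsionHeckeData1 D hℓ θ (AlgebraicClosure k) h2K
  haveI := hmax
  letI : Field (D.TT ⧸ RingHom.ker θ) := Ideal.Quotient.field (RingHom.ker θ)
  letI : Algebra (D.TT ⧸ RingHom.ker θ) (AlgebraicClosure k) :=
    ((algebraMap k (AlgebraicClosure k)).comp (RingHom.kerLift θ)).toAlgebra
  have halg : ∀ x : D.TT ⧸ RingHom.ker θ,
      algebraMap (D.TT ⧸ RingHom.ker θ) (AlgebraicClosure k) x =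
        algebraMap k (AlgebraicClosure k) (RingHom.kerLift θ x) := fun x => rfl
  have htr' : ∀ g, ∃ a : D.TT ⧸ RingHom.ker θ,
      algebraMap (D.TT ⧸ RingHom.ker θ) (AlgebraicClosure k) a =
        Matrix.trace (r g : Matrix (Fin 2) (Fin 2) (AlgebraicClosure k)) := by
    intro g
    obtain ⟨t, ht⟩ := htr g
    refine ⟨Ideal.Quotient.mk _ t, ?_⟩
    rw [halg, RingHom.kerLift_mk, ht]
  have hdet' : ∀ g, ∃ a : D.TT ⧸ RingHom.ker θ,
      algebraMap (D.TT ⧸ RingHom.ker θ) (AlgebraicClosure k) a =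
        Matrix.det (r g : Matrix (Fin 2) (Fin 2) (AlgebraicClosure k)) := by
    intro g
    obtain ⟨t, ht⟩ := hdet g
    refine ⟨Ideal.Quotient.mk _ t, ?_⟩
    rw [halg, RingHom.kerLift_mk, ht]
  obtain ⟨r', htr'', hdet'', hker, hss', -⟩ :=
    Fermat.Agent.S48x.Lift.Realise.exists_realisation (k := D.TT ⧸ RingHom.ker θ) r hss htr' hdet'
  refine ⟨D.TT ⧸ RingHom.ker θ, inferInstance, hfin, RingHom.kerLift θ, r', ?_, hss', ?_⟩
  · obtain ⟨L, hL, hLr⟩ := hlev
    exact ⟨L, hL, fun σ hσ => (hker σ).mpr (hLr σ hσ)⟩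
  · intro p hp hpM hpS A hA
    have hpℓ : p ≠ ℓ := fun h => hpM (h ▸ hℓM)
    obtain ⟨hin, hfr⟩ := hfrob p hp hpM hpS hpℓ A hA
    refine ⟨fun σ hσ => (hker σ).mpr (hin σ hσ), fun σ hσ => ?_⟩
    obtain ⟨h1, h2⟩ := hfr σ hσ
    constructor
    · apply (algebraMap k (AlgebraicClosure k)).injective
      rw [← halg, htr'' σ, h1]
    · apply (algebraMap k (AlgebraicClosure k)).injective
      rw [← halg, hdet'' σ, h2]
      simp only [hD, Bool.false_eq_true, if_false]

end Fermat.Agent.S48x.DS2
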