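/-
P-S48 (Deligne-Serre), block DS2-top (helper52): `ResidualRepsExist` from the three external
inputs DS0 (integral model), E-WP (Eisenstein series congruent to one) and G1 (the `Γ₁`-gateway
export).  Steps 2 (`Thetabar.lean`, helper35) and 3-4 (`Wrapper.lean`, helper78) are plugged into
`MainCore.lean`.
-/
import Mathlib
import Fermat.Agent.S48x.DS2.MainCore
import Fermat.Agent.S48x.DS2.Thetabar
import Fermat.Agent.S48x.DS2.Wrapper

set_option autoImplicit false

open CongruenceSubgroup UpperHalfPlane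
open scoped MatrixGroups ModularForm

namespace Fermat.Agent.S48x.DS2

local notation "Zbar" => integralClosure ℤ ℂ

theorem thetabarStatement : ThetabarStatement := by
  intro M ℓ _ H S D k _ φ χ g hgχ b hb hne c heig
  exact exists_thetabar H D φ χ g hgχ b hb hne c heig

theorem wrapperStatement : WrapperStatement := by
  intro M ℓ _ hℓ hℓ2 hℓM H S D hD k _ _ θ
  exact residualRep_of_thetabar hℓ hℓ2 hℓM H D hD θ

/-- **DS2**: residual representations exist, given the integral model (DS0), the Eisenstein series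
congruent to one (E-WP) and the `Γ₁`-gateway export (G1). -/
theorem residualRepsExist {N : ℕ} [NeZero N] (ε : DirichletCharacter ℂ N) (a : ℕ → ℂ)
    (hmodel : HasIntegralModel N ε a)
    (ha : ∀ p : ℕ, p.Prime → ¬ p ∣ N → IsIntegral ℤ (a p))
    (hEis : ∀ (ℓ : ℕ) [NeZero ℓ], ℓ.Prime → ℓ ≠ 2 → ∀ (k : Type) [Field k] [CharP k ℓ]
      (φ : Zbar →+* k), EisensteinCongrOne ℓ φ)
    (hG1 : ∀ (M ℓ : ℕ) [NeZero M], ℓ.Prime → ℓ ∣ M → (4 ∣ M ∨ 9 ∣ M) →
      ∃ (H : HeckeOps1 M 2) (D : TorsionHeckeData1 H ℓ M.primeFactors), D.diamInv = false) :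
    ResidualRepsExist N ε a :=
  residualRepsExist_of_inputs thetabarStatement wrapperStatement ε a hmodel ha hEis hG1

end Fermat.Agent.S48x.DS2
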