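/-
P-S48 (Deligne-Serre), block DS2-top (helper52): `ResidualRepsExist` for the data of the frozen
statement, with DS0 (`DS0/Final.lean`, helper16 + GS1 team) and E-WP (`EWP/Main.lean`,
helper30/helper40/helper42) plugged in.  The only remaining input is the `Γ₁`-gateway `G1Statement`.
-/
import Mathlib
import Fermat.Agent.S48x.DS2.Main
import Fermat.Agent.S48x.DS0.Final
import Fermat.Agent.S48x.EWP.Main

set_option autoImplicit false

open CongruenceSubgroup UpperHalfPlane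
open scoped MatrixGroups ModularForm

namespace Fermat.Agent.S48x.DS2

local notation "Zbar" => integralClosure ℤ ℂ

/-- What the `Γ₁`-gateway G1 owes: torsion data with Hecke action for `J₁(M)[ℓ^∞]`, good outside
the primes dividing `M`, at every level `M ≥ 8` divisible by `4` or `9` and every prime `ℓ ∣ M`. -/
def G1Statement : Prop :=
  ∀ (M : ℕ) [NeZero M], (4 ∣ M ∨ 9 ∣ M) → 8 ≤ M → ∀ ℓ : ℕ, ℓ.Prime → ℓ ∣ M →
    ∃ (H : HeckeOps1 M 2) (D : TorsionHeckeData1 H ℓ M.primeFactors), D.diamInv = false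

/-- **DS2 for the frozen data**, modulo G1. -/
theorem residualRepsExist_of_G1 (hG1 : G1Statement) {N : ℕ} [NeZero N]
    (ε : DirichletCharacter ℂ N) (f : CuspForm (Gamma1 N) 1)
    (hf₁ : ModularFormClass.qCoeff f 1 = 1)
    (hT : ∀ p : ℕ, p.Prime → ¬ p ∣ N → ∀ n : ℕ,
        ModularFormClass.qCoeff f (p * n) +
            ε (p : ZMod N) * (if p ∣ n then ModularFormClass.qCoeff f (n / p) else 0) =
          ModularFormClass.qCoeff f p * ModularFormClass.qCoeff f n) :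
    ResidualRepsExist N ε (fun p => ModularFormClass.qCoeff f p) := by
  classical
  have ha := DS0.integral ε f hf₁ hT
  obtain ⟨h, hneb, hint, heig, B, hB⟩ := DS0.integralModel ε f hf₁ hT
  refine ⟨insert 2 B, ?_⟩
  intro ℓ hℓ hℓB k _ _ φ
  have hℓ2 : ℓ ≠ 2 := fun h2 => hℓB (by rw [h2]; exact Finset.mem_insert_self _ _)
  have hℓB' : ℓ ∉ B := fun hmem => hℓB (Finset.mem_insert_of_mem hmem)
  have : NeZero ℓ := ⟨hℓ.ne_zero⟩
  have : Fact ℓ.Prime := ⟨hℓ⟩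
  have hne := hB ℓ hℓ hℓB' k φ
  have hE : EisensteinCongrOne ℓ φ := EWP.eisensteinCongrOne hℓ2 φ
  have hN0 : N ≠ 0 := NeZero.ne N
  have hℓ3 : 3 ≤ ℓ := by
    rcases Nat.lt_or_ge ℓ 3 with h3 | h3
    · have := hℓ.two_le
      omega
    · exact h3
  have hdiv : ∀ (c p : ℕ), p.Prime → p ∣ Nat.lcm N c * ℓ → p ∣ N ∨ p ∣ c ∨ p ∣ ℓ := by
    intro c p hp hdvd
    rcases (Nat.Prime.dvd_mul hp).mp hdvd with h1 | h1
    · have h2 : p ∣ N * c := dvd_trans h1 (Nat.lcm_dvd_mul N c)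
      rcases (Nat.Prime.dvd_mul hp).mp h2 with h3 | h3
      · exact Or.inl h3
      · exact Or.inr (Or.inl h3)
    · exact Or.inr (Or.inr h1)
  have hbig : ∀ c : ℕ, 4 ≤ c → 8 ≤ Nat.lcm N c * ℓ := by
    intro c hc
    have h1 : c ≤ Nat.lcm N c :=
      Nat.le_of_dvd (Nat.pos_of_ne_zero (Nat.lcm_ne_zero hN0 (by omega))) (Nat.dvd_lcm_right N c)
    nlinarith
  refine ⟨?_, ?_⟩
  · have : NeZero (Nat.lcm N 4 * ℓ) :=
      ⟨Nat.mul_ne_zero (Nat.lcm_ne_zero hN0 (by norm_num)) hℓ.ne_zero⟩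
    obtain ⟨H, D, hD⟩ := hG1 (Nat.lcm N 4 * ℓ)
      (Or.inl (dvd_mul_of_dvd_left (Nat.dvd_lcm_right N 4) ℓ)) (hbig 4 le_rfl) ℓ hℓ
      (Dvd.intro_left _ rfl)
    refine residualRepAt_of_level thetabarStatement wrapperStatement ha h hneb hint heig hℓ hℓ2 φ
      hne hE (dvd_mul_of_dvd_left (Nat.dvd_lcm_left N 4) ℓ) (Dvd.intro_left _ rfl) H D hD _ ?_
    intro p hp hpbad hpM
    apply hpbad
    rcases hdiv 4 p hp hpM with h1 | h1 | h1
    · exact dvd_mul_of_dvd_left (dvd_mul_of_dvd_right h1 2) ℓ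
    · have h2 : p ∣ 2 := by
        have : p ∣ 2 ^ 2 := by norm_num; exact h1
        exact hp.dvd_of_dvd_pow this
      exact dvd_mul_of_dvd_left (dvd_mul_of_dvd_left h2 N) ℓ
    · exact dvd_mul_of_dvd_right h1 _
  · have : NeZero (Nat.lcm N 9 * ℓ) :=
      ⟨Nat.mul_ne_zero (Nat.lcm_ne_zero hN0 (by norm_num)) hℓ.ne_zero⟩
    obtain ⟨H, D, hD⟩ := hG1 (Nat.lcm N 9 * ℓ)
      (Or.inr (dvd_mul_of_dvd_left (Nat.dvd_lcm_right N 9) ℓ)) (hbig 9 (by norm_num)) ℓ hℓ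
      (Dvd.intro_left _ rfl)
    refine residualRepAt_of_level thetabarStatement wrapperStatement ha h hneb hint heig hℓ hℓ2 φ
      hne hE (dvd_mul_of_dvd_left (Nat.dvd_lcm_left N 9) ℓ) (Dvd.intro_left _ rfl) H D hD _ ?_
    intro p hp hpbad hpM
    apply hpbad
    rcases hdiv 9 p hp hpM with h1 | h1 | h1
    · exact dvd_mul_of_dvd_left (dvd_mul_of_dvd_right h1 3) ℓ
    · have h2 : p ∣ 3 := by
        have : p ∣ 3 ^ 2 := by norm_num; exact h1
        exact hp.dvd_of_dvd_pow this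
      exact dvd_mul_of_dvd_left (dvd_mul_of_dvd_left h2 N) ℓ
    · exact dvd_mul_of_dvd_right h1 _

end Fermat.Agent.S48x.DS2
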