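/-
P-S48 (Deligne-Serre), block DS2-top, package (M2) = task 365 (helper3).

The mod `M` cyclotomic character of `Gal(ℚ̄/ℚ)`: a homomorphism `χ : Γℚ →* (ZMod M)ˣ` which
* factors through a finite level (it is trivial on the automorphisms fixing `ℚ(ζ_M)`),
* is trivial on the inertia groups at the primes `p ∤ M`,
* sends every Frobenius lift at a prime `p ∤ M` to `p`.

Model: `Fermat/Agent/Gateway/S30/CycloSpec.lean` (the `p`-adic version).
-/
import Mathlib
import Fermat.Agent.S48x.DS2.Contract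
import Fermat.Agent.Gateway.S31.RootsOfUnity

set_option autoImplicit false

namespace Fermat.Agent.S48x.DS2

open Fermat.Agent.Gateway.S31Red

local notation "Γℚ" => (AlgebraicClosure ℚ ≃ₐ[ℚ] AlgebraicClosure ℚ)

/-- `ℚ̄` has all `M`-th roots of unity. -/
theorem hasEnoughRootsOfUnity_Qbar_nat (M : ℕ) [NeZero M] :
    HasEnoughRootsOfUnity (AlgebraicClosure ℚ) M :=
  have : NeZero (M : ℚ) := ⟨by exact_mod_cast NeZero.ne M⟩
  AlgebraicClosure.hasEnoughRootsOfUnity ℚ M

/-- The number of `M`-th roots of unity in `ℚ̄` is `M`. -/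
theorem natCard_rootsOfUnity_Qbar (M : ℕ) [NeZero M] :
    Nat.card (rootsOfUnity M (AlgebraicClosure ℚ)) = M :=
  have := hasEnoughRootsOfUnity_Qbar_nat M
  HasEnoughRootsOfUnity.natCard_rootsOfUnity (AlgebraicClosure ℚ) M

/-- The mod `M` cyclotomic character of `Gal(ℚ̄/ℚ)`. -/
noncomputable def cycloMod (M : ℕ) [NeZero M] : Γℚ →* (ZMod M)ˣ :=
  (modularCyclotomicCharacter (AlgebraicClosure ℚ) (natCard_rootsOfUnity_Qbar M)).comp
    (MulSemiringAction.toRingAut Γℚ (AlgebraicClosure ℚ))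

/-- The defining property of the mod `M` cyclotomic character. -/
theorem cycloMod_spec (M : ℕ) [NeZero M] (σ : Γℚ) (t : AlgebraicClosure ℚ) (ht : t ^ M = 1) :
    σ t = t ^ ((cycloMod M σ : (ZMod M)ˣ) : ZMod M).val := by
  have ht0 : t ≠ 0 := by
    rintro rfl
    rw [zero_pow (NeZero.ne M)] at ht
    exact zero_ne_one ht
  have hmem : Units.mk0 t ht0 ∈ rootsOfUnity M (AlgebraicClosure ℚ) := by
    rw [mem_rootsOfUnity]
    ext
    simpa using ht
  have := modularCyclotomicCharacter.spec (AlgebraicClosure ℚ) (natCard_rootsOfUnity_Qbar M)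
    (MulSemiringAction.toRingAut Γℚ (AlgebraicClosure ℚ) σ) hmem
  simpa [cycloMod] using this

/-- Characterisation of the mod `M` cyclotomic character. -/
theorem cycloMod_eq_of_forall (M : ℕ) [NeZero M] (σ : Γℚ) (c : ZMod M)
    (h : ∀ t : AlgebraicClosure ℚ, t ^ M = 1 → σ t = t ^ c.val) :
    ((cycloMod M σ : (ZMod M)ˣ) : ZMod M) = c := by
  have := modularCyclotomicCharacter.unique (AlgebraicClosure ℚ) (natCard_rootsOfUnity_Qbar M)
    (MulSemiringAction.toRingAut Γℚ (AlgebraicClosure ℚ) σ) (c := c) ?_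
  · exact this.symm
  · intro t ht
    have ht' : ((t : (AlgebraicClosure ℚ)ˣ) : AlgebraicClosure ℚ) ^ M = 1 := by
      have := (mem_rootsOfUnity _ _).mp ht
      rw [← Units.val_pow_eq_pow_val, this, Units.val_one]
    exact h _ ht'

/-- `t ^ (a : ZMod m).val = t ^ a` for an `m`-th root of unity `t`. -/
theorem pow_val_natCast_eq' {N : Type*} [Monoid N] {m : ℕ} [NeZero m] {t : N} (ht : t ^ m = 1)
    (a : ℕ) : t ^ ((a : ZMod m)).val = t ^ a := by
  rw [ZMod.val_natCast]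
  conv_rhs => rw [← Nat.mod_add_div a m]
  rw [pow_add, pow_mul, ht, one_pow, mul_one]

/-- Level: the automorphisms fixing `ℚ(ζ_M)` have trivial mod `M` cyclotomic character. -/
theorem cycloMod_level (M : ℕ) [NeZero M] : GaloisFactorsThroughFiniteLevel (cycloMod M) := by
  have := hasEnoughRootsOfUnity_Qbar_nat M
  obtain ⟨ζ, hζ⟩ := HasEnoughRootsOfUnity.exists_primitiveRoot (AlgebraicClosure ℚ) M
  refine ⟨IntermediateField.adjoin ℚ {ζ}, IntermediateField.adjoin.finiteDimensional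
    (hζ.isIntegral (Nat.pos_of_neZero _)).tower_top, fun σ hσ => ?_⟩
  have hσζ : σ ζ = ζ := hσ ζ (IntermediateField.mem_adjoin_simple_self ℚ ζ)
  refine Units.ext ?_
  rw [Units.val_one]
  refine cycloMod_eq_of_forall M σ 1 fun t ht => ?_
  obtain ⟨i, -, rfl⟩ := hζ.eq_pow_of_pow_eq_one ht
  rw [map_pow, hσζ]
  have : (1 : ZMod M) = ((1 : ℕ) : ZMod M) := by simp
  rw [this, pow_val_natCast_eq' (by rw [← pow_mul, mul_comm, pow_mul, hζ.pow_eq_one, one_pow]),
    pow_one]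

/-- Frobenius lifts at `p ∤ M` have mod `M` cyclotomic character `p`. -/
theorem cycloMod_frob (M : ℕ) [NeZero M] (p : ℕ) (hp : p.Prime) (hpM : ¬ p ∣ M)
    (A : ValuationSubring (AlgebraicClosure ℚ)) (hA : A.LiesOverPrime p) (σ : Γℚ)
    (hσ : A.IsFrobeniusAt σ p) : ((cycloMod M σ : (ZMod M)ˣ) : ZMod M) = (p : ZMod M) := by
  refine cycloMod_eq_of_forall M σ _ fun t ht => ?_
  rw [frob_apply_rootOfUnity hp hA hσ hpM ht, pow_val_natCast_eq' ht]

/-- Inertia at `p ∤ M` has trivial mod `M` cyclotomic character. -/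
theorem cycloMod_inertia (M : ℕ) [NeZero M] (p : ℕ) (hp : p.Prime) (hpM : ¬ p ∣ M)
    (A : ValuationSubring (AlgebraicClosure ℚ)) (hA : A.LiesOverPrime p) (τ : Γℚ)
    (hτ : τ ∈ A.inertiaSubgroupIn ℚ) : cycloMod M τ = 1 := by
  refine Units.ext ?_
  rw [Units.val_one]
  refine cycloMod_eq_of_forall M τ _ fun t ht => ?_
  rw [apply_rootOfUnity_of_mem_inertia hp hA hτ hpM ht]
  have : (1 : ZMod M) = ((1 : ℕ) : ZMod M) := by simp
  rw [this, pow_val_natCast_eq' ht, pow_one]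

/-- Package (M2): the mod `M` cyclotomic character of `Gal(ℚ̄/ℚ)`: finite level, trivial on
inertia at `p ∤ M`, Frobenius at `p ∤ M` goes to `p`. -/
theorem exists_cycloMod (M : ℕ) [NeZero M] :
    ∃ χ : Γℚ →* (ZMod M)ˣ, GaloisFactorsThroughFiniteLevel χ ∧
      ∀ p : ℕ, p.Prime → ¬ p ∣ M → ∀ A : ValuationSubring (AlgebraicClosure ℚ),
        A.LiesOverPrime p →
        (∀ σ ∈ A.inertiaSubgroupIn ℚ, χ σ = 1) ∧
        ∀ σ : Γℚ, A.IsFrobeniusAt σ p → ((χ σ : (ZMod M)ˣ) : ZMod M) = (p : ZMod M) :=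
  ⟨cycloMod M, cycloMod_level M, fun p hp hpM A hA =>
    ⟨fun σ hσ => cycloMod_inertia M p hp hpM A hA σ hσ,
      fun σ hσ => cycloMod_frob M p hp hpM A hA σ hσ⟩⟩

end Fermat.Agent.S48x.DS2
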