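/-
P-S48 (Deligne–Serre), block DS2-top (helper78): `DS2.residualRepsExist` with the `Γ₁`-gateway
input (G1) required only at the levels `M ≥ 12` and the odd primes `ℓ` (the levels actually used
are `lcm(N,4) ℓ` and `lcm(N,9) ℓ` with `ℓ ≥ 3`).  The pinned target of G1 (`G1/Final.g1_main`) has
the hypothesis `8 ≤ M`, so it discharges `hG1` below but not the unrestricted `hG1` of
`DS2/Main.residualRepsExist`.  Same proof as `MainCore.residualRepsExist_of_inputs`.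
-/
import Mathlib
import Fermat.Agent.S48x.DS2.Main

set_option autoImplicit false

open CongruenceSubgroup UpperHalfPlane
open scoped MatrixGroups ModularForm

namespace Fermat.Agent.S48x.DS2

local notation "Zbar" => integralClosure ℤ ℂ

/-- the levels used by DS2 are at least `12`. -/
theorem twelve_le_lcm_mul {N c ℓ : ℕ} (hN : N ≠ 0) (hc : 4 ≤ c) (hℓ : ℓ.Prime) (hℓ2 : ℓ ≠ 2) :
    12 ≤ Nat.lcm N c * ℓ := by
  have hc0 : c ≠ 0 := by omega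
  have h1 : c ≤ Nat.lcm N c :=
    Nat.le_of_dvd (Nat.pos_of_ne_zero (Nat.lcm_ne_zero hN hc0)) (Nat.dvd_lcm_right N c)
  have h2 : 3 ≤ ℓ := by
    have := hℓ.two_le
    omega
  calc 12 = 4 * 3 := by norm_num
    _ ≤ Nat.lcm N c * ℓ := Nat.mul_le_mul (le_trans hc h1) h2

/-- **DS2**, with (G1) only at the levels `M ≥ 12` and the odd primes `ℓ`. -/
theorem residualRepsExist_of_large {N : ℕ} [NeZero N] (ε : DirichletCharacter ℂ N) (a : ℕ → ℂ)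
    (hmodel : HasIntegralModel N ε a)
    (ha : ∀ p : ℕ, p.Prime → ¬ p ∣ N → IsIntegral ℤ (a p))
    (hEis : ∀ (ℓ : ℕ) [NeZero ℓ], ℓ.Prime → ℓ ≠ 2 → ∀ (k : Type) [Field k] [CharP k ℓ]
      (φ : Zbar →+* k), EisensteinCongrOne ℓ φ)
    (hG1 : ∀ (M ℓ : ℕ) [NeZero M], 12 ≤ M → ℓ.Prime → ℓ ≠ 2 → ℓ ∣ M → (4 ∣ M ∨ 9 ∣ M) →
      ∃ (H : HeckeOps1 M 2) (D : TorsionHeckeData1 H ℓ M.primeFactors), D.diamInv = false) :
    ResidualRepsExist N ε a := by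
  classical
  obtain ⟨h, hneb, hint, heig, B, hB⟩ := hmodel
  refine ⟨insert 2 B, ?_⟩
  intro ℓ hℓ hℓB k _ _ φ
  have hℓ2 : ℓ ≠ 2 := fun h2 => hℓB (by rw [h2]; exact Finset.mem_insert_self _ _)
  have hℓB' : ℓ ∉ B := fun hmem => hℓB (Finset.mem_insert_of_mem hmem)
  have : NeZero ℓ := ⟨hℓ.ne_zero⟩
  have hne := hB ℓ hℓ hℓB' k φ
  have hE := hEis ℓ hℓ hℓ2 k φ
  have hN0 : N ≠ 0 := NeZero.ne N
  -- a prime dividing `lcm N c * ℓ` divides `N`, `c` or `ℓ`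
  have hdiv : ∀ (c p : ℕ), p.Prime → p ∣ Nat.lcm N c * ℓ → p ∣ N ∨ p ∣ c ∨ p ∣ ℓ := by
    intro c p hp hdvd
    rcases (Nat.Prime.dvd_mul hp).mp hdvd with h1 | h1
    · have h2 : p ∣ N * c := dvd_trans h1 (Nat.lcm_dvd_mul N c)
      rcases (Nat.Prime.dvd_mul hp).mp h2 with h3 | h3
      · exact Or.inl h3
      · exact Or.inr (Or.inl h3)
    · exact Or.inr (Or.inr h1)
  refine ⟨?_, ?_⟩
  · -- level `lcm(N,4) ℓ`
    have : NeZero (Nat.lcm N 4 * ℓ) :=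
      ⟨Nat.mul_ne_zero (Nat.lcm_ne_zero hN0 (by norm_num)) hℓ.ne_zero⟩
    obtain ⟨H, D, hD⟩ := hG1 (Nat.lcm N 4 * ℓ) ℓ
      (twelve_le_lcm_mul hN0 (le_refl 4) hℓ hℓ2) hℓ hℓ2 (Dvd.intro_left _ rfl)
      (Or.inl (dvd_mul_of_dvd_left (Nat.dvd_lcm_right N 4) ℓ))
    refine residualRepAt_of_level thetabarStatement wrapperStatement ha h hneb hint heig hℓ hℓ2 φ
      hne hE (dvd_mul_of_dvd_left (Nat.dvd_lcm_left N 4) ℓ) (Dvd.intro_left _ rfl) H D hD _ ?_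
    intro p hp hpbad hpM
    apply hpbad
    rcases hdiv 4 p hp hpM with h1 | h1 | h1
    · exact dvd_mul_of_dvd_left (dvd_mul_of_dvd_right h1 2) ℓ
    · have h2 : p ∣ 2 := by
        have : p ∣ 2 ^ 2 := by norm_num; exact h1
        exact hp.dvd_of_dvd_pow this
      exact dvd_mul_of_dvd_left (dvd_mul_of_dvd_left h2 N) ℓ
    · exact dvd_mul_of_dvd_right h1 _
  · -- level `lcm(N,9) ℓ`
    have : NeZero (Nat.lcm N 9 * ℓ) :=
      ⟨Nat.mul_ne_zero (Nat.lcm_ne_zero hN0 (by norm_num)) hℓ.ne_zero⟩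
    obtain ⟨H, D, hD⟩ := hG1 (Nat.lcm N 9 * ℓ) ℓ
      (twelve_le_lcm_mul hN0 (by norm_num) hℓ hℓ2) hℓ hℓ2 (Dvd.intro_left _ rfl)
      (Or.inr (dvd_mul_of_dvd_left (Nat.dvd_lcm_right N 9) ℓ))
    refine residualRepAt_of_level thetabarStatement wrapperStatement ha h hneb hint heig hℓ hℓ2 φ
      hne hE (dvd_mul_of_dvd_left (Nat.dvd_lcm_left N 9) ℓ) (Dvd.intro_left _ rfl) H D hD _ ?_
    intro p hp hpbad hpM
    apply hpbad
    rcases hdiv 9 p hp hpM with h1 | h1 | h1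
    · exact dvd_mul_of_dvd_left (dvd_mul_of_dvd_right h1 3) ℓ
    · have h2 : p ∣ 3 := by
        have : p ∣ 3 ^ 2 := by norm_num; exact h1
        exact hp.dvd_of_dvd_pow this
      exact dvd_mul_of_dvd_left (dvd_mul_of_dvd_left h2 N) ℓ
    · exact dvd_mul_of_dvd_right h1 _

end Fermat.Agent.S48x.DS2
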