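/-
P-S48 (Deligne-Serre), DS2-top (M1): occurrence of a maximal ideal in a finite module
(task 364, helper86).  Pure commutative algebra, Mathlib only.

* `finite_range_of_ker_le`: a ring homomorphism `θ : T → k` killing the annihilator of a finite
  `T`-module `X` has finite range.
* `ker_isMaximal_of_ker_le`: its kernel is then a maximal ideal.
* `exists_ne_zero_forall_mem_apply_eq_zero`: a maximal ideal `m` containing the annihilator of the
  finite module `X` occurs in `X`: there is `x ≠ 0` killed by `m`.
-/
import Mathlib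

set_option autoImplicit false

namespace Fermat.Agent.S48x.DS2

/-- The quotient of `T` by the kernel of an action on a finite abelian group is finite. -/
theorem finite_quotient_ker {T : Type*} [CommRing T] {X : Type*} [AddCommGroup X] [Finite X]
    (h : T →+* AddMonoid.End X) : Finite (T ⧸ RingHom.ker h) := by
  have hEnd : Finite (AddMonoid.End X) :=
    Finite.of_injective (fun f : AddMonoid.End X => (f : X → X)) DFunLike.coe_injective
  exact Finite.of_injective _ (RingHom.kerLift_injective h)

theorem finite_range_of_ker_le {T : Type*} [CommRing T] {X : Type*} [AddCommGroup X] [Finite X]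
    (h : T →+* AddMonoid.End X) {k : Type*} [Field k] (θ : T →+* k)
    (hker : RingHom.ker h ≤ RingHom.ker θ) : Finite θ.range := by
  have hfin := finite_quotient_ker h
  let θ' : T ⧸ RingHom.ker h →+* k := Ideal.Quotient.lift (RingHom.ker h) θ
    (fun a ha => RingHom.mem_ker.mp (hker ha))
  have hmem : ∀ x : T ⧸ RingHom.ker h, θ' x ∈ θ.range := by
    intro x
    obtain ⟨t, rfl⟩ := Ideal.Quotient.mk_surjective x
    exact ⟨t, by simp [θ']⟩
  refine Finite.of_surjective (fun x : T ⧸ RingHom.ker h => (⟨θ' x, hmem x⟩ : θ.range)) ?_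
  rintro ⟨y, t, rfl⟩
  exact ⟨Ideal.Quotient.mk _ t, by simp [θ']⟩

theorem ker_isMaximal_of_ker_le {T : Type*} [CommRing T] {X : Type*} [AddCommGroup X] [Finite X]
    (h : T →+* AddMonoid.End X) {k : Type*} [Field k] (θ : T →+* k)
    (hker : RingHom.ker h ≤ RingHom.ker θ) : (RingHom.ker θ).IsMaximal := by
  have hfin := finite_range_of_ker_le h θ hker
  have hfield : IsField θ.range := Finite.isDomain_to_isField _
  exact Ideal.Quotient.maximal_of_isField _
    (MulEquiv.isField hfield (RingHom.quotientKerEquivRange θ).toMulEquiv)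

/-- Module form of the occurrence lemma: a maximal ideal containing the annihilator of a nonzero
finite module `X` kills some nonzero element of `X`. -/
theorem exists_ne_zero_forall_mem_smul_eq_zero {T : Type*} [CommRing T] {X : Type*}
    [AddCommGroup X] [Module T X] [Finite X] (m : Ideal T) [hm : m.IsMaximal]
    (hann : ∀ t : T, (∀ x : X, t • x = 0) → t ∈ m) :
    ∃ x : X, x ≠ 0 ∧ ∀ t ∈ m, t • x = 0 := by
  classical
  -- the chain `m ^ j • ⊤` stabilises
  let N : ℕ → Submodule T X := fun j => (m ^ j) • (⊤ : Submodule T X)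
  have hNanti : Antitone N := by
    intro i j hij
    exact Submodule.smul_mono_left (Ideal.pow_le_pow_right hij)
  obtain ⟨j, hj⟩ := IsArtinian.monotone_stabilizes (R := T) (M := X)
    ⟨fun j => OrderDual.toDual (N j), fun i j hij => hNanti hij⟩
  have hstab : N j = N (j + 1) := by
    have := hj (j + 1) (Nat.le_succ j)
    exact congrArg OrderDual.ofDual this
  -- Nakayama
  have hle : N j ≤ m • N j := by
    have h1 : N (j + 1) = m • N j := by
      change (m ^ (j + 1)) • (⊤ : Submodule T X) = m • ((m ^ j) • (⊤ : Submodule T X))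
      rw [pow_succ', Submodule.mul_smul]
    rw [← h1, ← hstab]
  obtain ⟨a, ha1, haN⟩ := Submodule.exists_sub_one_mem_and_smul_eq_zero_of_fg_of_le_smul m (N j)
    (IsNoetherian.noetherian _) hle
  have ham : a ∉ m := by
    intro ha
    have h1 : (1 : T) ∈ m := by
      have := m.sub_mem ha ha1
      simpa using this
    exact hm.ne_top ((Ideal.eq_top_iff_one m).mpr h1)
  obtain ⟨x, hx⟩ : ∃ x : X, a • x ≠ 0 := by
    by_contra hcon
    push Not at hcon
    exact ham (hann a hcon)
  set z : X := a • x with hz
  have hzj : ∀ t ∈ m ^ j, t • z = 0 := by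
    intro t ht
    have hmem : t • x ∈ N j := Submodule.smul_mem_smul ht Submodule.mem_top
    rw [hz, smul_comm]
    exact haN _ hmem
  -- minimal exponent killing `z`
  have hex : ∃ i, ∀ t ∈ m ^ i, t • z = 0 := ⟨j, hzj⟩
  have hfind := Nat.find_spec hex
  have hmin := fun i => Nat.find_min hex (m := i)
  rcases Nat.eq_zero_or_pos (Nat.find hex) with h0 | hpos
  · exfalso
    rw [h0] at hfind
    have := hfind 1 (by simp)
    rw [one_smul] at this
    exact hx this
  · obtain ⟨i', hi'⟩ : ∃ i', Nat.find hex = i' + 1 := ⟨Nat.find hex - 1, by omega⟩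
    have hnot := hmin i' (by omega)
    push Not at hnot
    obtain ⟨t, ht, htz⟩ := hnot
    refine ⟨t • z, htz, fun s hs => ?_⟩
    rw [smul_smul]
    apply hfind
    rw [hi', pow_succ']
    exact Ideal.mul_mem_mul hs ht

theorem exists_ne_zero_forall_mem_apply_eq_zero {T : Type*} [CommRing T] {X : Type*}
    [AddCommGroup X] [Finite X] (h : T →+* AddMonoid.End X) (m : Ideal T) [m.IsMaximal]
    (hker : RingHom.ker h ≤ m) : ∃ x : X, x ≠ 0 ∧ ∀ t ∈ m, h t x = 0 := by
  let _ : Module T X := Module.compHom X h
  have hsmul : ∀ (t : T) (x : X), t • x = h t x := fun _ _ => rfl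
  obtain ⟨x, hx, hxm⟩ := exists_ne_zero_forall_mem_smul_eq_zero (T := T) (X := X) m (by
    intro t ht
    apply hker
    rw [RingHom.mem_ker]
    ext x
    rw [← hsmul, ht x]
    rfl)
  exact ⟨x, hx, fun t ht => by rw [← hsmul]; exact hxm t ht⟩

/-- The occurrence lemma for the kernel of a character `θ : T → k` killing the annihilator of
the finite module `X`: some nonzero `x` is killed by `ker θ`. -/
theorem exists_ne_zero_forall_ker_apply_eq_zero {T : Type*} [CommRing T] {X : Type*}
    [AddCommGroup X] [Finite X] (h : T →+* AddMonoid.End X) {k : Type*} [Field k] (θ : T →+* k)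
    (hker : RingHom.ker h ≤ RingHom.ker θ) : ∃ x : X, x ≠ 0 ∧ ∀ t : T, θ t = 0 → h t x = 0 := by
  have hmax := ker_isMaximal_of_ker_le h θ hker
  obtain ⟨x, hx, hxm⟩ := exists_ne_zero_forall_mem_apply_eq_zero h (RingHom.ker θ) hker
  exact ⟨x, hx, fun t ht => hxm t (RingHom.mem_ker.mpr ht)⟩

/-- The residue ring `T ⧸ ker θ` is finite. -/
theorem finite_quotient_ker_of_ker_le {T : Type*} [CommRing T] {X : Type*} [AddCommGroup X]
    [Finite X] (h : T →+* AddMonoid.End X) {k : Type*} [Field k] (θ : T →+* k)
    (hker : RingHom.ker h ≤ RingHom.ker θ) : Finite (T ⧸ RingHom.ker θ) := by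
  have hfin := finite_range_of_ker_le h θ hker
  exact Finite.of_equiv _ (RingHom.quotientKerEquivRange θ).toEquiv.symm

end Fermat.Agent.S48x.DS2
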