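/-
P-S48 (Deligne-Serre), block DS2-top, step 1 (helper52): the product of a weight one cusp form on
`Γ₁(N)` and a weight one modular form on `Γ₁(ℓ)` as a weight two cusp form on `Γ₁(M)`, for any
common multiple `M`; its `q`-expansion and its behaviour under `Γ₀(M)`.
-/
import Mathlib
import Fermat.Prelude.Def_FLTPrelim_Modularity

set_option autoImplicit false

open CongruenceSubgroup UpperHalfPlane
open scoped MatrixGroups ModularForm

namespace Fermat.Agent.S48x.DS2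

/-! ### Restriction of the level -/

/-- Restrict a cusp form to a smaller group. -/
def restrictCusp {Γ Γ' : Subgroup (GL (Fin 2) ℝ)} (h : Γ' ≤ Γ) {k : ℤ}
    (f : CuspForm Γ k) : CuspForm Γ' k where
  toFun := f
  slash_action_eq' γ hγ := f.slash_action_eq' γ (h hγ)
  holo' := f.holo'
  zero_at_cusps' hc := f.zero_at_cusps' (hc.mono h)

@[simp] theorem coe_restrictCusp {Γ Γ' : Subgroup (GL (Fin 2) ℝ)} (h : Γ' ≤ Γ) {k : ℤ}
    (f : CuspForm Γ k) : (restrictCusp h f : ℍ → ℂ) = f := rfl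

/-- Restrict a modular form to a smaller group. -/
def restrictMod {Γ Γ' : Subgroup (GL (Fin 2) ℝ)} (h : Γ' ≤ Γ) {k : ℤ}
    (f : ModularForm Γ k) : ModularForm Γ' k where
  toFun := f
  slash_action_eq' γ hγ := f.slash_action_eq' γ (h hγ)
  holo' := f.holo'
  bdd_at_cusps' hc := f.bdd_at_cusps' (hc.mono h)

@[simp] theorem coe_restrictMod {Γ Γ' : Subgroup (GL (Fin 2) ℝ)} (h : Γ' ≤ Γ) {k : ℤ}
    (f : ModularForm Γ k) : (restrictMod h f : ℍ → ℂ) = f := rfl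

theorem Gamma1_le_of_dvd {N M : ℕ} (h : N ∣ M) : Gamma1 M ≤ Gamma1 N := by
  intro A hA
  rw [Gamma1_mem] at hA ⊢
  obtain ⟨h00, h11, h10⟩ := hA
  have key : ∀ a b : ℤ, ((a : ℤ) : ZMod M) = (b : ℤ) → ((a : ℤ) : ZMod N) = (b : ℤ) := by
    intro a b hab
    rw [ZMod.intCast_eq_intCast_iff_dvd_sub] at hab ⊢
    exact dvd_trans (Int.natCast_dvd_natCast.mpr h) hab
  refine ⟨?_, ?_, ?_⟩
  · have := key (A 0 0) 1 (by simpa using h00)
    simpa using this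
  · have := key (A 1 1) 1 (by simpa using h11)
    simpa using this
  · have := key (A 1 0) 0 (by simpa using h10)
    simpa using this

theorem Gamma1_map_le_of_dvd {N M : ℕ} (h : N ∣ M) :
    ((Gamma1 M : Subgroup SL(2, ℤ)) : Subgroup (GL (Fin 2) ℝ)) ≤
      ((Gamma1 N : Subgroup SL(2, ℤ)) : Subgroup (GL (Fin 2) ℝ)) :=
  Subgroup.map_mono (Gamma1_le_of_dvd h)

/-! ### The product -/

/-- The product of a weight one cusp form on `Γ₁(N)` and a weight one modular form on `Γ₁(ℓ)`,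
as a weight two cusp form on `Γ₁(M)`. -/
noncomputable def prodForm {N ℓ M : ℕ} (hN : N ∣ M) (hℓ : ℓ ∣ M)
    (f : CuspForm (Gamma1 N) 1) (E : ModularForm (Gamma1 ℓ) 1) : CuspForm (Gamma1 M) 2 :=
  CuspForm.mcast (by norm_num : (1 : ℤ) + 1 = 2)
    (CuspForm.mulModularForm (restrictCusp (Gamma1_map_le_of_dvd hN) f)
      (restrictMod (Gamma1_map_le_of_dvd hℓ) E))

theorem coe_prodForm {N ℓ M : ℕ} (hN : N ∣ M) (hℓ : ℓ ∣ M)
    (f : CuspForm (Gamma1 N) 1) (E : ModularForm (Gamma1 ℓ) 1) :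
    (prodForm hN hℓ f E : ℍ → ℂ) = (f : ℍ → ℂ) * (E : ℍ → ℂ) := rfl

theorem one_mem_strictPeriods_Gamma1 (M : ℕ) :
    (1 : ℝ) ∈ ((Gamma1 M : Subgroup SL(2, ℤ)) : Subgroup (GL (Fin 2) ℝ)).strictPeriods := by
  simp [CongruenceSubgroup.strictPeriods_Gamma1]

theorem qExpansion_prodForm {N ℓ M : ℕ} (hN : N ∣ M) (hℓ : ℓ ∣ M)
    (f : CuspForm (Gamma1 N) 1) (E : ModularForm (Gamma1 ℓ) 1) :
    qExpansion 1 (prodForm hN hℓ f E) = qExpansion 1 f * qExpansion 1 E := by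
  rw [coe_prodForm]
  exact ModularForm.qExpansion_mul_coe one_pos (one_mem_strictPeriods_Gamma1 M)
    (restrictCusp (Gamma1_map_le_of_dvd hN) f) (restrictMod (Gamma1_map_le_of_dvd hℓ) E)

theorem qCoeff_prodForm {N ℓ M : ℕ} (hN : N ∣ M) (hℓ : ℓ ∣ M)
    (f : CuspForm (Gamma1 N) 1) (E : ModularForm (Gamma1 ℓ) 1) (n : ℕ) :
    ModularFormClass.qCoeff (prodForm hN hℓ f E) n =
      ∑ p ∈ Finset.HasAntidiagonal.antidiagonal n,
        ModularFormClass.qCoeff f p.1 * ModularFormClass.qCoeff E p.2 := by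
  unfold ModularFormClass.qCoeff
  rw [qExpansion_prodForm, PowerSeries.coeff_mul]

/-- The product transforms under `Γ₀(M)` by the product of the two characters. -/
theorem slash_prodForm {N ℓ M : ℕ} (hN : N ∣ M) (hℓ : ℓ ∣ M)
    (f : CuspForm (Gamma1 N) 1) (E : ModularForm (Gamma1 ℓ) 1) (γ : SL(2, ℤ)) (c₁ c₂ : ℂ)
    (h₁ : (⇑f : ℍ → ℂ) ∣[(1 : ℤ)] γ = c₁ • (⇑f : ℍ → ℂ))
    (h₂ : (⇑E : ℍ → ℂ) ∣[(1 : ℤ)] γ = c₂ • (⇑E : ℍ → ℂ)) :
    (⇑(prodForm hN hℓ f E) : ℍ → ℂ) ∣[(2 : ℤ)] γ =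
      (c₁ * c₂) • (⇑(prodForm hN hℓ f E) : ℍ → ℂ) := by
  rw [coe_prodForm]
  have h := ModularForm.mul_slash_SL2 (1 : ℤ) (1 : ℤ) γ (⇑f : ℍ → ℂ) (⇑E : ℍ → ℂ)
  have h2 : ((1 : ℤ) + 1) = 2 := by norm_num
  rw [h2] at h
  rw [h, h₁, h₂]
  ext z
  simp only [Pi.mul_apply, Pi.smul_apply, smul_eq_mul]
  ring

end Fermat.Agent.S48x.DS2
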