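import Mathlib

/-!
# P-S48, DS2 (RX): extraction of a two dimensional representation, irreducible core

Let `K` be an algebraically closed field with `2 ≠ 0`, `G` a group acting irreducibly on a finite
dimensional `K`-space `U` through `ρ`, and assume that every `ρ g` satisfies a quadratic relation
`ρ g ^ 2 - s g • ρ g + δ g = 0` where `δ : G →* Kˣ` is a character.  Then `dim U ≤ 2`; if
`dim U = 2` then `tr (ρ g) = s g` and `det (ρ g) = δ g` for every `g`.

The proof is the "polynomial identity" argument: `x ↦ S x - x` is an anti-involution on the span of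
`ρ G`, hence every element of the span is quadratic; by Burnside (Jacobson density) the span is
`End U`, which contains non-quadratic elements as soon as `dim U ≥ 3`.
-/

set_option autoImplicit false
set_option linter.unusedSectionVars false
set_option linter.style.haveILetI false

noncomputable section

namespace Fermat.Agent.S48x.DS2.ResExtract

open Module

section Density

variable {K U : Type*} [Field K] [IsAlgClosed K] [AddCommGroup U] [Module K U]
  [FiniteDimensional K U]

/-- **Burnside via Jacobson density**: a subalgebra of `End U` acting irreducibly on a nonzero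
finite dimensional space over an algebraically closed field interpolates every endomorphism on
every finite set of vectors. -/
theorem exists_mem_apply_eq (𝒜 : Subalgebra K (Module.End K U)) [Nontrivial U]
    (hirr : ∀ W : Submodule K U, (∀ x ∈ 𝒜, ∀ u ∈ W, x u ∈ W) → W = ⊥ ∨ W = ⊤)
    (f : Module.End K U) (s : Finset U) : ∃ x ∈ 𝒜, ∀ m ∈ s, x m = f m := by
  haveI : IsScalarTower K 𝒜 U := ⟨fun c x u => by
    show (c • x : 𝒜).1 u = c • (x.1 u)
    simp⟩
  haveI : IsSimpleModule 𝒜 U := by
    rw [isSimpleModule_iff]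
    refine ⟨fun W => ?_⟩
    let W' : Submodule K U :=
      { carrier := W
        add_mem' := W.add_mem
        zero_mem' := W.zero_mem
        smul_mem' := fun c u hu => by
          have : c • u = (algebraMap K 𝒜 c) • u := by
            rw [algebraMap_smul]
          rw [this]
          exact W.smul_mem _ hu }
    have hmem : ∀ u, u ∈ W' ↔ u ∈ W := fun u => Iff.rfl
    rcases hirr W' (fun x hx u hu => W.smul_mem ⟨x, hx⟩ hu) with h | h
    · left
      ext u
      rw [← hmem, h]
      simp
    · right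
      ext u
      rw [← hmem, h]
      simp
  have hschur : Function.Bijective (algebraMap K (Module.End 𝒜 U)) :=
    IsSimpleModule.algebraMap_end_bijective_of_isAlgClosed K
  let f' : Module.End (Module.End 𝒜 U) U :=
    { toFun := f
      map_add' := f.map_add
      map_smul' := fun φ u => by
        obtain ⟨c, rfl⟩ := hschur.2 φ
        simp }
  obtain ⟨r, hr⟩ := jacobson_density f' s
  exact ⟨r.1, r.2, fun m hm => (hr m hm).symm⟩

end Density

section Quadratic

variable {K : Type*} [Field K] {G : Type*} [Group G] {U : Type*} [AddCommGroup U] [Module K U]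
  (ρ : G →* Module.End K U) (δ : G →* Kˣ) (s : G → K)

/-- The quadratic relation satisfied by every `ρ g`. -/
def QuadRel : Prop := ∀ g, ρ g * ρ g - s g • ρ g + ((δ g : Kˣ) : K) • (1 : Module.End K U) = 0

variable {ρ δ s}

/-- `ρ g + δ g • ρ g⁻¹ = s g`. -/
theorem QuadRel.add_inv (hq : QuadRel ρ δ s) (g : G) :
    ρ g + ((δ g : Kˣ) : K) • ρ g⁻¹ = s g • (1 : Module.End K U) := by
  have h1 := hq g
  have h2 : ρ g * ρ g⁻¹ = 1 := by rw [← map_mul, mul_inv_cancel, map_one]
  have h3 : (ρ g * ρ g - s g • ρ g + ((δ g : Kˣ) : K) • (1 : Module.End K U)) * ρ g⁻¹ = 0 := by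
    rw [h1, zero_mul]
  rw [add_mul, sub_mul, mul_assoc, h2, mul_one, smul_mul_assoc, h2, smul_mul_assoc, one_mul] at h3
  rw [← sub_eq_zero, ← h3]
  abel

/-- Every finite linear combination `x` of the `ρ g` satisfies `2 x² - 2 t x + c = 0`. -/
theorem QuadRel.exists_quadratic (hq : QuadRel ρ δ s) (F : Finset G) (c : G → K) :
    ∃ t n : K, (2 : K) • ((∑ g ∈ F, c g • ρ g) * (∑ g ∈ F, c g • ρ g))
      - (2 * t) • (∑ g ∈ F, c g • ρ g) + n • (1 : Module.End K U) = 0 := by
  set x : Module.End K U := ∑ g ∈ F, c g • ρ g with hx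
  set t : K := ∑ g ∈ F, c g * s g with ht
  set n' : K := ∑ g ∈ F, ∑ h ∈ F, c g * c h * s (h * g) with hn'
  -- `x' = t - x`
  have hx' : ∑ g ∈ F, (c g * ((δ g : Kˣ) : K)) • ρ g⁻¹ = t • (1 : Module.End K U) - x := by
    rw [hx, ht, Finset.sum_smul, ← Finset.sum_sub_distrib]
    refine Finset.sum_congr rfl fun g _ => ?_
    rw [mul_smul, mul_smul, ← hq.add_inv g, smul_add]
    abel
  -- `x' * x' = n' - x * x`
  have hxx : (∑ g ∈ F, (c g * ((δ g : Kˣ) : K)) • ρ g⁻¹) *
      (∑ g ∈ F, (c g * ((δ g : Kˣ) : K)) • ρ g⁻¹) = n' • (1 : Module.End K U) - x * x := by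
    rw [Finset.sum_mul_sum, hx, Finset.sum_mul_sum, hn', Finset.sum_smul]
    rw [Finset.sum_comm (f := fun i j => c i • ρ i * c j • ρ j), ← Finset.sum_sub_distrib]
    refine Finset.sum_congr rfl fun g _ => ?_
    rw [Finset.sum_smul, ← Finset.sum_sub_distrib]
    refine Finset.sum_congr rfl fun h _ => ?_
    have h1 : ρ g⁻¹ * ρ h⁻¹ = ρ (h * g)⁻¹ := by rw [← map_mul, mul_inv_rev]
    have h2 : ((δ g : Kˣ) : K) * ((δ h : Kˣ) : K) = ((δ (h * g) : Kˣ) : K) := by
      rw [map_mul, Units.val_mul, mul_comm]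
    have h3 := hq.add_inv (h * g)
    rw [smul_mul_smul_comm, h1, smul_mul_smul_comm, ← map_mul,
      show c g * ((δ g : Kˣ) : K) * (c h * ((δ h : Kˣ) : K)) =
        c g * c h * (((δ g : Kˣ) : K) * ((δ h : Kˣ) : K)) by ring, h2, mul_smul (c g * c h),
      mul_smul (c g * c h), ← h3, smul_add, mul_comm (c h) (c g)]
    abel
  refine ⟨t, t * t - n', ?_⟩
  rw [hx'] at hxx
  have h4 : (t • (1 : Module.End K U) - x) * (t • (1 : Module.End K U) - x) =
      (t * t) • (1 : Module.End K U) - (2 * t) • x + x * x := by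
    rw [sub_mul, mul_sub, mul_sub, smul_mul_assoc, one_mul, smul_mul_assoc, one_mul,
      mul_smul_comm, mul_one, smul_smul, two_mul, add_smul]
    abel
  rw [h4] at hxx
  have h5 : (2 : K) • (x * x) = x * x + x * x := by rw [two_smul]
  rw [h5, sub_smul]
  have h6 := sub_eq_zero.mpr hxx
  rw [← h6]
  abel

end Quadratic

section Irreducible

variable {K : Type*} [Field K] {G : Type*} [Group G] {U : Type*} [AddCommGroup U] [Module K U]

/-- Irreducibility: no proper nonzero `G`-stable subspace. -/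
def IsIrred (ρ : G →* Module.End K U) : Prop :=
  ∀ W : Submodule K U, (∀ g, ∀ u ∈ W, ρ g u ∈ W) → W = ⊥ ∨ W = ⊤

variable {ρ : G →* Module.End K U} {δ : G →* Kˣ} {s : G → K}

/-- Elements of the algebra generated by `ρ G` are finite linear combinations of the `ρ g`. -/
theorem exists_sum_of_mem_adjoin {x : Module.End K U}
    (hx : x ∈ Algebra.adjoin K (Set.range ρ)) :
    ∃ (F : Finset G) (c : G → K), x = ∑ g ∈ F, c g • ρ g := by
  have h1 : x ∈ Submodule.span K (Set.range ρ) := by
    have h2 : (Submonoid.closure (Set.range ρ) : Set (Module.End K U)) = Set.range ρ := by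
      rw [← MonoidHom.coe_mrange, Submonoid.closure_eq]
    have h3 := Algebra.adjoin_eq_span K (Set.range ρ)
    rw [h2] at h3
    rw [← h3]
    exact hx
  obtain ⟨c, hc⟩ := Finsupp.mem_span_range_iff_exists_finsupp.mp h1
  exact ⟨c.support, c, hc.symm⟩

variable [IsAlgClosed K] [FiniteDimensional K U] [Nontrivial U]

/-- **The dimension bound.** -/
theorem finrank_le_two (h2 : (2 : K) ≠ 0) (hq : QuadRel ρ δ s) (hirr : IsIrred ρ) :
    finrank K U ≤ 2 := by
  by_contra hlt
  push Not at hlt
  obtain ⟨e, he⟩ := exists_linearIndependent_of_le_finrank (R := K) (M := U) (n := 3) hlt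
  -- an endomorphism with `e 0 ↦ e 1 ↦ e 2`
  let b := Basis.span he
  let fp : Submodule.span K (Set.range e) →ₗ[K] U :=
    b.constr K (fun i : Fin 3 => if i = 0 then e 1 else if i = 1 then e 2 else 0)
  obtain ⟨f, hf⟩ := LinearMap.exists_extend fp
  have hb : ∀ i, ((b i : Submodule.span K (Set.range e)) : U) = e i := fun i =>
    congrArg Subtype.val (Basis.span_apply he i)
  have hfe : ∀ i, f (e i) = if i = 0 then e 1 else if i = 1 then e 2 else 0 := by
    intro i
    have h1 : f (e i) = fp (b i) := by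
      rw [← hf, LinearMap.comp_apply, Submodule.subtype_apply, hb]
    rw [h1]
    exact b.constr_basis K _ i
  -- Burnside
  have hirr' : ∀ W : Submodule K U,
      (∀ x ∈ Algebra.adjoin K (Set.range ρ), ∀ u ∈ W, x u ∈ W) → W = ⊥ ∨ W = ⊤ :=
    fun W hW => hirr W fun g u hu => hW _ (Algebra.subset_adjoin ⟨g, rfl⟩) u hu
  classical
  obtain ⟨x, hx𝒜, hx⟩ := exists_mem_apply_eq (Algebra.adjoin K (Set.range ρ)) hirr' f
    {e 0, e 1}
  have hx0 : x (e 0) = e 1 := by
    rw [hx (e 0) (by simp), hfe 0]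
    simp
  have hx1 : x (e 1) = e 2 := by
    rw [hx (e 1) (by simp), hfe 1]
    simp
  obtain ⟨F, c, hxc⟩ := exists_sum_of_mem_adjoin hx𝒜
  obtain ⟨t, n, hquad⟩ := hq.exists_quadratic F c
  rw [← hxc] at hquad
  have h3 := congrArg (fun y : Module.End K U => y (e 0)) hquad
  simp only [LinearMap.add_apply, LinearMap.sub_apply, LinearMap.smul_apply, Module.End.mul_apply,
    Module.End.one_apply, LinearMap.zero_apply, hx0, hx1] at h3
  -- a nontrivial linear relation between `e 0, e 1, e 2`
  have h4 := Fintype.linearIndependent_iff.mp he (fun i => if i = 0 then n else if i = 1 then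
    -(2 * t) else 2) (by
      rw [Fin.sum_univ_three]
      simp only [Fin.isValue, ↓reduceIte, one_ne_zero, Fin.reduceEq, neg_smul]
      rw [← h3]
      abel) 2
  simp at h4
  exact h2 h4

end Irreducible

section TwoByTwo

variable {K : Type*} [Field K]

/-- Cayley--Hamilton for `2 × 2` matrices. -/
theorem cayley_hamilton_two (M : Matrix (Fin 2) (Fin 2) K) :
    M * M - M.trace • M + M.det • (1 : Matrix (Fin 2) (Fin 2) K) = 0 := by
  ext i j
  fin_cases i <;> fin_cases j <;>
    simp [Matrix.mul_apply, Fin.sum_univ_two, Matrix.trace_fin_two, Matrix.det_fin_two] <;> ring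

/-- A non-scalar `2 × 2` matrix satisfies a unique monic quadratic relation. -/
theorem trace_det_of_quadratic {M : Matrix (Fin 2) (Fin 2) K} {a d : K}
    (h : M * M - a • M + d • (1 : Matrix (Fin 2) (Fin 2) K) = 0)
    (hns : ∀ c : K, M ≠ c • (1 : Matrix (Fin 2) (Fin 2) K)) : M.trace = a ∧ M.det = d := by
  have hch := cayley_hamilton_two M
  have h1 : (M.trace - a) • M = (M.det - d) • (1 : Matrix (Fin 2) (Fin 2) K) := by
    have h0 : (M.trace - a) • M - (M.det - d) • (1 : Matrix (Fin 2) (Fin 2) K) =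
        (M * M - a • M + d • (1 : Matrix (Fin 2) (Fin 2) K)) -
          (M * M - M.trace • M + M.det • (1 : Matrix (Fin 2) (Fin 2) K)) := by
      rw [sub_smul, sub_smul]
      abel
    rw [← sub_eq_zero, h0, h, hch, sub_zero]
  have h2 : M.trace = a := by
    by_contra hne
    have hne' : M.trace - a ≠ 0 := sub_ne_zero.mpr hne
    apply hns ((M.trace - a)⁻¹ * (M.det - d))
    rw [mul_smul, ← h1, smul_smul, inv_mul_cancel₀ hne', one_smul]
  refine ⟨h2, ?_⟩
  rw [h2, sub_self, zero_smul] at h1
  have h3 := congrFun (congrFun h1 0) 0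
  simp only [Matrix.zero_apply, Matrix.smul_apply, Matrix.one_apply_eq, smul_eq_mul, mul_one] at h3
  exact sub_eq_zero.mp h3.symm

end TwoByTwo

section Diag

variable {K : Type*} [Field K] {G : Type*} [Group G]

/-- Weak semisimplicity of a two dimensional representation: every stable line has a stable
complement. -/
def WeakSS (r : G →* GL (Fin 2) K) : Prop :=
  ∀ v : Fin 2 → K, v ≠ 0 →
    (∀ g, ∃ c : K, (r g : Matrix (Fin 2) (Fin 2) K).mulVec v = c • v) →
    ∃ w : Fin 2 → K, (∀ c : K, w ≠ c • v) ∧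
      ∀ g, ∃ c : K, (r g : Matrix (Fin 2) (Fin 2) K).mulVec w = c • w

/-- The diagonal matrices attached to two characters. -/
def diagHom (χ₁ χ₂ : G →* Kˣ) : G →* Matrix (Fin 2) (Fin 2) K where
  toFun g := Matrix.diagonal ![((χ₁ g : Kˣ) : K), ((χ₂ g : Kˣ) : K)]
  map_one' := by
    ext i j
    fin_cases i <;> fin_cases j <;> simp
  map_mul' g h := by
    rw [Matrix.diagonal_mul_diagonal]
    congr 1
    ext i
    fin_cases i <;> simp

/-- The diagonal representation `χ₁ ⊕ χ₂`. -/
def diagRep (χ₁ χ₂ : G →* Kˣ) : G →* GL (Fin 2) K := (diagHom χ₁ χ₂).toHomUnits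

theorem coe_diagRep (χ₁ χ₂ : G →* Kˣ) (g : G) :
    ((diagRep χ₁ χ₂ g : GL (Fin 2) K) : Matrix (Fin 2) (Fin 2) K) =
      Matrix.diagonal ![((χ₁ g : Kˣ) : K), ((χ₂ g : Kˣ) : K)] :=
  MonoidHom.coe_toHomUnits _ g

theorem trace_diagRep (χ₁ χ₂ : G →* Kˣ) (g : G) :
    Matrix.trace ((diagRep χ₁ χ₂ g : GL (Fin 2) K) : Matrix (Fin 2) (Fin 2) K) =
      ((χ₁ g : Kˣ) : K) + ((χ₂ g : Kˣ) : K) := by
  rw [coe_diagRep, Matrix.trace_fin_two]
  simp

theorem det_diagRep (χ₁ χ₂ : G →* Kˣ) (g : G) :
    Matrix.det ((diagRep χ₁ χ₂ g : GL (Fin 2) K) : Matrix (Fin 2) (Fin 2) K) =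
      ((χ₁ g : Kˣ) : K) * ((χ₂ g : Kˣ) : K) := by
  rw [coe_diagRep, Matrix.det_fin_two]
  simp

theorem weakSS_diagRep (χ₁ χ₂ : G →* Kˣ) : WeakSS (diagRep χ₁ χ₂) := by
  intro v _ _
  by_cases h1 : v 1 = 0
  · refine ⟨![0, 1], fun c hc => ?_, fun g => ⟨((χ₂ g : Kˣ) : K), ?_⟩⟩
    · have h := congrFun hc 1
      simp [h1] at h
    · rw [coe_diagRep]
      ext i
      rw [Matrix.mulVec_diagonal]
      fin_cases i <;> simp
  · refine ⟨![1, 0], fun c hc => ?_, fun g => ⟨((χ₁ g : Kˣ) : K), ?_⟩⟩
    · have h0 := congrFun hc 1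
      simp only [Fin.isValue, Matrix.cons_val_one, Matrix.cons_val_fin_one, Pi.smul_apply,
        smul_eq_mul] at h0
      rcases mul_eq_zero.mp h0.symm with h0 | h0
      · have h := congrFun hc 0
        simp [h0] at h
      · exact h1 h0
    · rw [coe_diagRep]
      ext i
      rw [Matrix.mulVec_diagonal]
      fin_cases i <;> simp

end Diag

section Core

variable {K : Type*} [Field K] {G : Type*} [Group G] {U : Type*} [AddCommGroup U] [Module K U]
  {ρ : G →* Module.End K U} {δ : G →* Kˣ} {s : G → K}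

/-- An irreducible two dimensional representation has no common eigenvector. -/
theorem IsIrred.not_common_eigenvector [FiniteDimensional K U] (hirr : IsIrred ρ)
    (hd : finrank K U = 2) {u : U} (hu : u ≠ 0) : ¬ ∀ g, ∃ c : K, ρ g u = c • u := by
  intro hcon
  have hst : ∀ g, ∀ w ∈ Submodule.span K {u}, ρ g w ∈ Submodule.span K {u} := by
    intro g w hw
    obtain ⟨a, rfl⟩ := Submodule.mem_span_singleton.mp hw
    obtain ⟨c, hc⟩ := hcon g
    rw [map_smul, hc]
    exact Submodule.smul_mem _ _ (Submodule.smul_mem _ _ (Submodule.mem_span_singleton_self u))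
  rcases hirr _ hst with h | h
  · exact hu (Submodule.span_singleton_eq_bot.mp h)
  · have h1 : finrank K (Submodule.span K {u}) = 1 := finrank_span_singleton hu
    rw [h, finrank_top, hd] at h1
    omega

/-- **Dimension two**: the representation itself, in a basis. -/
theorem exists_rep_of_finrank_two [FiniteDimensional K U]
    (hq : QuadRel ρ δ s) (hirr : IsIrred ρ) (hd : finrank K U = 2) :
    ∃ r : G →* GL (Fin 2) K, WeakSS r ∧
      (∀ g, Matrix.trace (r g : Matrix (Fin 2) (Fin 2) K) = s g) ∧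
      (∀ g, Matrix.det (r g : Matrix (Fin 2) (Fin 2) K) = ((δ g : Kˣ) : K)) ∧
      ∀ g h, ρ g = ρ h → δ g = δ h → r g = r h := by
  classical
  let b : Basis (Fin 2) K U := Module.finBasisOfFinrankEq K U hd
  let R : G →* Matrix (Fin 2) (Fin 2) K :=
    { toFun := fun g => LinearMap.toMatrix b b (ρ g)
      map_one' := by
        rw [map_one]
        exact LinearMap.toMatrix_one b
      map_mul' := fun g h => by
        rw [map_mul]
        exact LinearMap.toMatrix_mul b _ _ }
  have hR : ∀ g, R g = LinearMap.toMatrix b b (ρ g) := fun g => rfl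
  have hRq : ∀ g, R g * R g - s g • R g + ((δ g : Kˣ) : K) • (1 : Matrix (Fin 2) (Fin 2) K) = 0 := by
    intro g
    have h := congrArg (LinearMap.toMatrix b b) (hq g)
    rw [map_add, map_sub, LinearMap.toMatrix_mul, map_smul, map_smul, LinearMap.toMatrix_one,
      map_zero] at h
    exact h
  -- no common eigenvector
  have hnce : ∀ v : Fin 2 → K, v ≠ 0 → ¬ ∀ g, ∃ c : K, (R g).mulVec v = c • v := by
    intro v hv hcon
    have hu : b.equivFun.symm v ≠ 0 := fun h => hv (b.equivFun.symm.map_eq_zero_iff.mp h)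
    refine hirr.not_common_eigenvector hd hu fun g => ?_
    obtain ⟨c, hc⟩ := hcon g
    refine ⟨c, b.equivFun.injective ?_⟩
    have h1 := LinearMap.toMatrix_mulVec_repr b b (ρ g) (b.equivFun.symm v)
    have h3 : (b.repr (b.equivFun.symm v) : Fin 2 → K) = v := by
      rw [← Basis.equivFun_apply, LinearEquiv.apply_symm_apply]
    rw [h3, ← hR, hc] at h1
    rw [Basis.equivFun_apply, ← h1, map_smul, LinearEquiv.apply_symm_apply]
  -- a non-scalar element
  obtain ⟨h₀, hh₀⟩ : ∃ h, ∀ c : K, R h ≠ c • (1 : Matrix (Fin 2) (Fin 2) K) := by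
    by_contra hcon
    push Not at hcon
    refine hnce ![1, 0] (fun h => ?_) fun g => ?_
    · have := congrFun h 0
      simp at this
    · obtain ⟨c, hc⟩ := hcon g
      exact ⟨c, by rw [hc, Matrix.smul_mulVec, Matrix.one_mulVec]⟩
  have key : ∀ g, (∀ c : K, R g ≠ c • (1 : Matrix (Fin 2) (Fin 2) K)) →
      (R g).trace = s g ∧ (R g).det = ((δ g : Kˣ) : K) :=
    fun g hg => trace_det_of_quadratic (hRq g) hg
  have main : ∀ g, (R g).trace = s g ∧ (R g).det = ((δ g : Kˣ) : K) := by
    intro g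
    by_cases hg : ∀ c : K, R g ≠ c • (1 : Matrix (Fin 2) (Fin 2) K)
    · exact key g hg
    · push Not at hg
      obtain ⟨c, hc⟩ := hg
      have hc0 : c ≠ 0 := by
        rintro rfl
        have h1 : R g * R g⁻¹ = 1 := by rw [← map_mul, mul_inv_cancel, map_one]
        rw [hc, zero_smul, zero_mul] at h1
        exact zero_ne_one h1
      have hgh : ∀ c' : K, R (g * h₀) ≠ c' • (1 : Matrix (Fin 2) (Fin 2) K) := by
        intro c' hc'
        rw [map_mul, hc, smul_mul_assoc, one_mul] at hc'
        apply hh₀ (c⁻¹ * c')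
        rw [mul_smul, ← hc', smul_smul, inv_mul_cancel₀ hc0, one_smul]
      obtain ⟨-, hd1⟩ := key (g * h₀) hgh
      obtain ⟨-, hd2⟩ := key h₀ hh₀
      rw [map_mul, hc, smul_mul_assoc, one_mul, Matrix.det_smul, Fintype.card_fin, hd2, map_mul,
        Units.val_mul] at hd1
      have hdg : ((δ g : Kˣ) : K) = c ^ 2 := (mul_right_cancel₀ (Units.ne_zero _) hd1).symm
      have hqg := hRq g
      rw [hc] at hqg
      have h00 := congrFun (congrFun hqg 0) 0
      simp only [Matrix.smul_mul, Matrix.one_mul, Matrix.add_apply, Matrix.sub_apply,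
        Matrix.smul_apply, Matrix.one_apply_eq, smul_eq_mul, mul_one, Matrix.zero_apply, hdg]
        at h00
      constructor
      · rw [hc, Matrix.trace_smul, Matrix.trace_one, Fintype.card_fin, smul_eq_mul]
        have h5 : c * (2 * c - s g) = 0 := by
          rw [← h00]
          ring
        rcases mul_eq_zero.mp h5 with h5 | h5
        · exact absurd h5 hc0
        · push_cast
          rw [← sub_eq_zero, ← h5]
          ring
      · rw [hc, Matrix.det_smul, Matrix.det_one, Fintype.card_fin, mul_one, hdg]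
  refine ⟨R.toHomUnits, ?_, fun g => ?_, fun g => ?_, fun g h hgh _ => ?_⟩
  · intro v hv hcon
    exact absurd (fun g => by simpa only [MonoidHom.coe_toHomUnits] using hcon g) (hnce v hv)
  · rw [MonoidHom.coe_toHomUnits]
    exact (main g).1
  · rw [MonoidHom.coe_toHomUnits]
    exact (main g).2
  · apply Units.ext
    rw [MonoidHom.coe_toHomUnits, MonoidHom.coe_toHomUnits, hR, hR, hgh]

/-- **Dimension one**: `ψ ⊕ δ ψ⁻¹`. -/
theorem exists_rep_of_finrank_one [FiniteDimensional K U] (hq : QuadRel ρ δ s)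
    (hd : finrank K U = 1) :
    ∃ r : G →* GL (Fin 2) K, WeakSS r ∧
      (∀ g, Matrix.trace (r g : Matrix (Fin 2) (Fin 2) K) = s g) ∧
      (∀ g, Matrix.det (r g : Matrix (Fin 2) (Fin 2) K) = ((δ g : Kˣ) : K)) ∧
      ∀ g h, ρ g = ρ h → δ g = δ h → r g = r h := by
  haveI : Nontrivial U := Module.nontrivial_of_finrank_pos (R := K) (by omega)
  obtain ⟨u, hu⟩ := exists_ne (0 : U)
  have hspan : ∀ w : U, ∃ c : K, c • u = w := (finrank_eq_one_iff_of_nonzero' u hu).mp hd
  choose ψ hψ using fun g => hspan (ρ g u)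
  have hinj : Function.Injective fun c : K => c • u := smul_left_injective K hu
  have hψ1 : ψ 1 = 1 := by
    apply hinj
    show ψ 1 • u = (1 : K) • u
    rw [hψ, map_one, Module.End.one_apply, one_smul]
  have hψmul : ∀ g h, ψ (g * h) = ψ g * ψ h := by
    intro g h
    apply hinj
    show ψ (g * h) • u = (ψ g * ψ h) • u
    rw [hψ, map_mul, Module.End.mul_apply, ← hψ h, map_smul, ← hψ g, smul_smul, mul_comm]
  let Ψ : G →* K := ⟨⟨ψ, hψ1⟩, hψmul⟩
  let χ₁ : G →* Kˣ := Ψ.toHomUnits
  let χ₂ : G →* Kˣ := δ / χ₁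
  have hχ₁ : ∀ g, ((χ₁ g : Kˣ) : K) = ψ g := fun g => MonoidHom.coe_toHomUnits Ψ g
  have hχ₂ : ∀ g, ((χ₁ g : Kˣ) : K) * ((χ₂ g : Kˣ) : K) = ((δ g : Kˣ) : K) := by
    intro g
    rw [← Units.val_mul]
    congr 1
    show χ₁ g * (δ g / χ₁ g) = δ g
    rw [mul_div_cancel]
  refine ⟨diagRep χ₁ χ₂, weakSS_diagRep _ _, fun g => ?_, fun g => ?_, fun g h hgh hδ => ?_⟩
  · rw [trace_diagRep]
    have h1 := congrArg (fun y : Module.End K U => y u) (hq g)
    simp only [LinearMap.add_apply, LinearMap.sub_apply, LinearMap.smul_apply,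
      Module.End.mul_apply, Module.End.one_apply, LinearMap.zero_apply] at h1
    rw [← hψ g, map_smul, ← hψ g, smul_smul, smul_smul, ← sub_smul, ← add_smul] at h1
    have h3 : ψ g * ψ g - s g * ψ g + ((δ g : Kˣ) : K) = 0 := by
      apply hinj
      show (ψ g * ψ g - s g * ψ g + ((δ g : Kˣ) : K)) • u = (0 : K) • u
      rw [h1, zero_smul]
    have hne : ((χ₁ g : Kˣ) : K) ≠ 0 := Units.ne_zero _
    apply mul_left_cancel₀ hne
    rw [mul_add, hχ₂, hχ₁]
    rw [← sub_eq_zero, ← h3]
    ring
  · rw [det_diagRep, hχ₂]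
  · have h1 : χ₁ g = χ₁ h := by
      apply Units.ext
      rw [hχ₁, hχ₁]
      apply hinj
      show ψ g • u = ψ h • u
      rw [hψ, hψ, hgh]
    have h2 : χ₂ g = χ₂ h := by
      show δ g / χ₁ g = δ h / χ₁ h
      rw [h1, hδ]
    apply Units.ext
    rw [coe_diagRep, coe_diagRep, h1, h2]

variable [IsAlgClosed K] [FiniteDimensional K U] [Nontrivial U]

/-- **The irreducible core.** -/
theorem exists_rep_of_irred (h2 : (2 : K) ≠ 0) (hq : QuadRel ρ δ s) (hirr : IsIrred ρ) :
    ∃ r : G →* GL (Fin 2) K, WeakSS r ∧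
      (∀ g, Matrix.trace (r g : Matrix (Fin 2) (Fin 2) K) = s g) ∧
      (∀ g, Matrix.det (r g : Matrix (Fin 2) (Fin 2) K) = ((δ g : Kˣ) : K)) ∧
      ∀ g h, ρ g = ρ h → δ g = δ h → r g = r h := by
  have hle := finrank_le_two h2 hq hirr
  have hpos : 0 < finrank K U := finrank_pos
  have hcases : finrank K U = 1 ∨ finrank K U = 2 := by omega
  rcases hcases with hd | hd
  · exact exists_rep_of_finrank_one hq hd
  · exact exists_rep_of_finrank_two hq hirr hd

end Core

section Minimal

variable {K : Type*} [Field K] {G : Type*} [Group G] {U : Type*} [AddCommGroup U] [Module K U]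
  (ρ : G →* Module.End K U)

/-- The restriction of a representation to a stable subspace. -/
def restrictRep (W : Submodule K U) (hW : ∀ g, ∀ u ∈ W, ρ g u ∈ W) : G →* Module.End K W where
  toFun g := (ρ g).restrict (hW g)
  map_one' := by
    ext w
    simp
  map_mul' g h := by
    ext w
    simp

theorem restrictRep_apply (W : Submodule K U) (hW : ∀ g, ∀ u ∈ W, ρ g u ∈ W) (g : G) (w : W) :
    ((restrictRep ρ W hW g) w : U) = ρ g w := rfl

variable {ρ} {δ : G →* Kˣ} {s : G → K}

theorem QuadRel.restrictRep (hq : QuadRel ρ δ s) (W : Submodule K U)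
    (hW : ∀ g, ∀ u ∈ W, ρ g u ∈ W) : QuadRel (restrictRep ρ W hW) δ s := by
  intro g
  ext w
  have h1 := congrArg (fun y : Module.End K U => y (w : U)) (hq g)
  simp only [LinearMap.add_apply, LinearMap.sub_apply, LinearMap.smul_apply,
    Module.End.mul_apply, Module.End.one_apply, LinearMap.zero_apply] at h1
  simp only [LinearMap.add_apply, LinearMap.sub_apply, LinearMap.smul_apply,
    Module.End.mul_apply, Module.End.one_apply, LinearMap.zero_apply, Submodule.coe_add,
    Submodule.coe_sub, Submodule.coe_smul, restrictRep_apply, ZeroMemClass.coe_zero]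
  exact h1

/-- A nonzero finite dimensional representation contains an irreducible subrepresentation. -/
theorem exists_irred_sub [FiniteDimensional K U] [Nontrivial U] (ρ : G →* Module.End K U) :
    ∃ (W : Submodule K U) (hW : ∀ g, ∀ u ∈ W, ρ g u ∈ W), W ≠ ⊥ ∧ IsIrred (restrictRep ρ W hW) := by
  let S : Set (Submodule K U) := {W | W ≠ ⊥ ∧ ∀ g, ∀ u ∈ W, ρ g u ∈ W}
  have hS : S.Nonempty := ⟨⊤, top_ne_bot, fun _ _ _ => Submodule.mem_top⟩
  obtain ⟨W, ⟨hW0, hW⟩, hmin⟩ := (wellFounded_lt (α := Submodule K U)).has_min S hS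
  refine ⟨W, hW, hW0, fun W' hW' => ?_⟩
  -- push `W'` forward to `U`
  have hst : ∀ g, ∀ u ∈ W'.map W.subtype, ρ g u ∈ W'.map W.subtype := by
    intro g u hu
    obtain ⟨w, hw, rfl⟩ := Submodule.mem_map.mp hu
    exact Submodule.mem_map.mpr ⟨restrictRep ρ W hW g w, hW' g w hw, rfl⟩
  have hle : W'.map W.subtype ≤ W := Submodule.map_subtype_le W W'
  by_cases h0 : W'.map W.subtype = ⊥
  · left
    apply Submodule.map_injective_of_injective (Submodule.injective_subtype W)
    rw [h0, Submodule.map_bot]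
  · right
    have h1 : ¬ W'.map W.subtype < W := hmin _ ⟨h0, hst⟩
    have h2 : W'.map W.subtype = W := by
      rcases lt_or_eq_of_le hle with h | h
      · exact absurd h h1
      · exact h
    apply Submodule.map_injective_of_injective (Submodule.injective_subtype W)
    rw [h2, Submodule.map_subtype_top]

end Minimal

section Main

variable {K : Type*} [Field K] [IsAlgClosed K] {G : Type*} [Group G] {U : Type*} [AddCommGroup U]
  [Module K U] [FiniteDimensional K U] [Nontrivial U]
  {ρ : G →* Module.End K U} {δ : G →* Kˣ} {s : G → K}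

/-- **Extraction over an algebraically closed field** (with a chosen trace function `s`). -/
theorem exists_rep_of_quadRel (h2 : (2 : K) ≠ 0) (hq : QuadRel ρ δ s) :
    ∃ r : G →* GL (Fin 2) K, WeakSS r ∧
      (∀ g, Matrix.trace (r g : Matrix (Fin 2) (Fin 2) K) = s g) ∧
      (∀ g, Matrix.det (r g : Matrix (Fin 2) (Fin 2) K) = ((δ g : Kˣ) : K)) ∧
      ∀ g h, ρ g = ρ h → δ g = δ h → r g = r h := by
  obtain ⟨W, hW, hW0, hirr⟩ := exists_irred_sub ρ
  haveI : Nontrivial W := Submodule.nontrivial_iff_ne_bot.mpr hW0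
  obtain ⟨r, hss, htr, hdet, hker⟩ := exists_rep_of_irred h2 (hq.restrictRep W hW) hirr
  refine ⟨r, hss, htr, hdet, fun g h hgh hδ => hker g h ?_ hδ⟩
  ext w
  rw [restrictRep_apply, restrictRep_apply, hgh]

/-- **Extraction over an algebraically closed field**, in the shape of note 1020 (`helper78`):
the trace of `r g` is *any* `a` for which `ρ g` satisfies `X² - a X + δ g`. -/
theorem exists_gl2_of_quadratic (h2 : (2 : K) ≠ 0) (ρ : G →* Module.End K U) (δ : G →* Kˣ)
    (hq : ∀ g, ∃ a : K,
      ρ g * ρ g - a • ρ g + ((δ g : Kˣ) : K) • (1 : Module.End K U) = 0) :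
    ∃ r : G →* GL (Fin 2) K,
      (∀ g (a : K), ρ g * ρ g - a • ρ g + ((δ g : Kˣ) : K) • (1 : Module.End K U) = 0 →
        Matrix.trace (r g : Matrix (Fin 2) (Fin 2) K) = a) ∧
      (∀ g, Matrix.det (r g : Matrix (Fin 2) (Fin 2) K) = ((δ g : Kˣ) : K)) ∧
      (∀ g, ρ g = 1 → δ g = 1 → r g = 1) ∧ WeakSS r ∧
      ∀ g h, ρ g = ρ h → δ g = δ h → r g = r h := by
  choose s hs using hq
  obtain ⟨r, hss, htr, hdet, hker⟩ := exists_rep_of_quadRel (ρ := ρ) (δ := δ) (s := s) h2 hs
  refine ⟨r, fun g a ha => ?_, hdet, fun g hg hδ => ?_, hss, hker⟩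
  · rw [htr]
    -- uniqueness of `a`
    have h1 : (a - s g) • ρ g = 0 := by
      have h3 := hs g
      rw [sub_smul]
      have h4 : a • ρ g - s g • ρ g =
          (ρ g * ρ g - s g • ρ g + ((δ g : Kˣ) : K) • (1 : Module.End K U)) -
            (ρ g * ρ g - a • ρ g + ((δ g : Kˣ) : K) • (1 : Module.End K U)) := by abel
      rw [h4, h3, ha, sub_zero]
    have h5 : ρ g * ρ g⁻¹ = 1 := by rw [← map_mul, mul_inv_cancel, map_one]
    have h6 : (a - s g) • (1 : Module.End K U) = 0 := by
      rw [← h5, ← smul_mul_assoc, h1, zero_mul]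
    rcases smul_eq_zero.mp h6 with h7 | h7
    · exact (sub_eq_zero.mp h7).symm
    · exact absurd h7 one_ne_zero
  · have h1 := hker g 1 (by rw [hg, map_one]) (by rw [hδ, map_one])
    rw [h1, map_one]

end Main

section BaseChange

open TensorProduct

variable {k : Type*} [Field k] {G : Type*} [Group G] {V : Type*} [AddCommGroup V] [Module k V]
  [FiniteDimensional k V] [Nontrivial V]

/-- **Extraction over an arbitrary field `k` with `2 ≠ 0`**, with values in any algebraically
closed extension `K` of `k` (for instance `AlgebraicClosure k`). -/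
theorem exists_rep_of_quadratic (h2 : (2 : k) ≠ 0) (ρ : G →* Module.End k V) (δ : G →* kˣ)
    (s : G → k)
    (hq : ∀ g, ρ g * ρ g - s g • ρ g + ((δ g : kˣ) : k) • (1 : Module.End k V) = 0)
    (K : Type*) [Field K] [Algebra k K] [IsAlgClosed K] :
    ∃ r : G →* GL (Fin 2) K, WeakSS r ∧
      (∀ g, Matrix.trace (r g : Matrix (Fin 2) (Fin 2) K) = algebraMap k K (s g)) ∧
      (∀ g, Matrix.det (r g : Matrix (Fin 2) (Fin 2) K) = algebraMap k K ((δ g : kˣ) : k)) ∧
      (∀ g, ρ g = 1 → δ g = 1 → r g = 1) ∧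
      ∀ g h, ρ g = ρ h → δ g = δ h → r g = r h := by
  let ρ' : G →* Module.End K (K ⊗[k] V) :=
    { toFun := fun g => (ρ g).baseChange K
      map_one' := by rw [map_one, LinearMap.baseChange_one]
      map_mul' := fun g h => by rw [map_mul, LinearMap.baseChange_mul] }
  let δ' : G →* Kˣ := (Units.map (algebraMap k K : k →* K)).comp δ
  have hρ' : ∀ g, ρ' g = (ρ g).baseChange K := fun g => rfl
  have hδ' : ∀ g, ((δ' g : Kˣ) : K) = algebraMap k K ((δ g : kˣ) : k) := fun g => rfl
  have hq' : QuadRel ρ' δ' (fun g => algebraMap k K (s g)) := by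
    intro g
    have h1 := congrArg (LinearMap.baseChange K) (hq g)
    rw [LinearMap.baseChange_add, LinearMap.baseChange_sub, LinearMap.baseChange_mul,
      LinearMap.baseChange_smul, LinearMap.baseChange_smul, LinearMap.baseChange_one,
      LinearMap.baseChange_zero] at h1
    rw [hρ', hδ', algebraMap_smul, algebraMap_smul]
    exact h1
  haveI : Nontrivial (K ⊗[k] V) := by
    apply Module.nontrivial_of_finrank_pos (R := K)
    rw [Module.finrank_baseChange]
    exact finrank_pos
  have h2' : (2 : K) ≠ 0 := by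
    have h3 : (2 : K) = algebraMap k K 2 := (map_ofNat (algebraMap k K) 2).symm
    rw [h3]
    exact fun h => h2 ((algebraMap k K).injective (by rw [h, map_zero]))
  obtain ⟨r, hss, htr, hdet, hker⟩ := exists_rep_of_quadRel h2' hq'
  have hker' : ∀ g h, ρ g = ρ h → δ g = δ h → r g = r h := fun g h hgh hδ =>
    hker g h (by rw [hρ', hρ', hgh]) (by
      show (Units.map (algebraMap k K : k →* K)) (δ g) = (Units.map (algebraMap k K : k →* K)) (δ h)
      rw [hδ])
  refine ⟨r, hss, htr, fun g => by rw [hdet, hδ'], fun g hg hδ => ?_, hker'⟩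
  have h1 := hker' g 1 (by rw [hg, map_one]) (by rw [hδ, map_one])
  rw [h1, map_one]

end BaseChange

end Fermat.Agent.S48x.DS2.ResExtract
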