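import Mathlib

/-!
# P-S48, DS2, STEP 3: the support lemma and the `𝔪`-torsion as a Galois module

`TT` is a commutative ring acting on a finite abelian group `W` through `act`.  If the annihilator
of `W` is contained in a proper ideal `𝔪`, then `W[𝔪] ≠ 0`.  Moreover `W[𝔪]` is a `TT ⧸ 𝔪`-module,
every additive endomorphism of `W` commuting with `TT` acts on it `TT ⧸ 𝔪`-linearly, and relations
between such endomorphisms with coefficients in `TT` restrict to `W[𝔪]`.
-/

set_option autoImplicit false
set_option linter.unusedSectionVars false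
set_option linter.style.haveILetI false

noncomputable section

namespace Fermat.Agent.S48x.DS2.Supp

section Support

variable {TT : Type*} [CommRing TT] {W : Type*} [AddCommGroup W]
  (act : TT →+* AddMonoid.End W)

/-- **The support lemma**: a proper ideal containing the annihilator of a finite module kills a
nonzero element.  (Nakayama applied to the stable term of the chain `𝔪 ^ j W`.) -/
theorem exists_ne_zero_killed [Finite W] (m : Ideal TT) (hm : m ≠ ⊤)
    (hann : ∀ y, act y = 0 → y ∈ m) : ∃ w : W, w ≠ 0 ∧ ∀ y ∈ m, act y w = 0 := by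
  letI : Module TT W := Module.compHom W act
  have hsmul : ∀ (y : TT) (w : W), y • w = act y w := fun _ _ => rfl
  haveI : IsArtinian TT W := inferInstance
  let f : ℕ →o (Submodule TT W)ᵒᵈ :=
    ⟨fun j => OrderDual.toDual ((m ^ j) • (⊤ : Submodule TT W)), fun i j hij => by
      show (m ^ j) • (⊤ : Submodule TT W) ≤ (m ^ i) • (⊤ : Submodule TT W)
      exact Submodule.smul_mono_left (Ideal.pow_le_pow_right hij)⟩
  obtain ⟨N, hN⟩ := IsArtinian.monotone_stabilizes f
  have hstab : (m ^ N) • (⊤ : Submodule TT W) = (m ^ (N + 1)) • (⊤ : Submodule TT W) :=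
    congrArg OrderDual.ofDual (hN (N + 1) (Nat.le_succ N))
  have hle : (m ^ N) • (⊤ : Submodule TT W) ≤ m • ((m ^ N) • (⊤ : Submodule TT W)) := by
    rw [← Submodule.mul_smul, ← pow_succ', ← hstab]
  obtain ⟨r, hr1, hr0⟩ := Submodule.exists_sub_one_mem_and_smul_eq_zero_of_fg_of_le_smul m
    ((m ^ N) • (⊤ : Submodule TT W)) (IsNoetherian.noetherian _) hle
  have hrm : r ∉ m := fun h => hm ((Ideal.eq_top_iff_one m).mpr (by
    have h1 := m.sub_mem h hr1
    simpa using h1))
  by_cases hr : act r = 0
  · exact absurd (hann r hr) hrm
  · obtain ⟨w₀, hw₀⟩ : ∃ w₀, act r w₀ ≠ 0 := by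
      by_contra hcon
      push Not at hcon
      exact hr (AddMonoidHom.ext hcon)
    let P : ℕ → Prop := fun j => ∀ x ∈ m ^ j, act x (act r w₀) = 0
    have hPN : P N := by
      intro x hx
      have h1 : x • w₀ ∈ (m ^ N) • (⊤ : Submodule TT W) :=
        Submodule.smul_mem_smul hx Submodule.mem_top
      have h2 := hr0 _ h1
      rw [← hsmul, ← hsmul, smul_comm, h2]
    classical
    have hex : ∃ j, P j := ⟨N, hPN⟩
    have hspec : P (Nat.find hex) := Nat.find_spec hex
    have h0 : Nat.find hex ≠ 0 := by
      intro h0
      rw [h0] at hspec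
      apply hw₀
      have h1 := hspec 1 (by simp)
      simpa using h1
    obtain ⟨j, hj⟩ := Nat.exists_eq_succ_of_ne_zero h0
    have hnP : ¬ P j := Nat.find_min hex (by omega)
    simp only [P] at hnP
    push Not at hnP
    obtain ⟨x, hx, hxw⟩ := hnP
    refine ⟨act x (act r w₀), hxw, fun y hy => ?_⟩
    have h3 : y * x ∈ m ^ (j + 1) := by
      rw [pow_succ']
      exact Ideal.mul_mem_mul hy hx
    have h4 := hspec (y * x) (by rw [hj]; exact h3)
    rw [map_mul] at h4
    exact h4

/-- The hypothesis of the support lemma from the `faithful` clause of the torsion contract. -/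
theorem mem_of_faithful (m : Ideal TT) {ℓ : ℕ} {n : ℕ} (hn : 0 < n) (hℓ : (ℓ : TT) ∈ m)
    (hfaith : ∀ y, act y = 0 → ∃ y' : TT, y = ((ℓ : ℤ) ^ n) • y') :
    ∀ y, act y = 0 → y ∈ m := by
  intro y hy
  obtain ⟨y', rfl⟩ := hfaith y hy
  have h1 : ((ℓ : ℤ) ^ n) • y' = (ℓ : TT) * ((ℓ : TT) ^ (n - 1) * y') := by
    rw [zsmul_eq_mul, ← mul_assoc, ← pow_succ', Nat.sub_add_cancel hn]
    push_cast
    rfl
  rw [h1]
  exact m.mul_mem_right _ hℓ

end Support

section Killed

variable {TT : Type*} [CommRing TT] {W : Type*} [AddCommGroup W]

/-- `W` as a `TT`-module through `act`. -/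
def ActMod (_act : TT →+* AddMonoid.End W) : Type _ := W

variable (act : TT →+* AddMonoid.End W)

instance : AddCommGroup (ActMod act) := inferInstanceAs (AddCommGroup W)

instance : Module TT (ActMod act) := Module.compHom W act

instance [Finite W] : Finite (ActMod act) := inferInstanceAs (Finite W)

/-- The identification `W → ActMod act`. -/
def ActMod.of : W →+ ActMod act := AddMonoidHom.id W

/-- The identification `ActMod act → W`. -/
def ActMod.val : ActMod act →+ W := AddMonoidHom.id W

@[simp] theorem ActMod.val_of (w : W) : ActMod.val act (ActMod.of act w) = w := rfl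

@[simp] theorem ActMod.of_val (x : ActMod act) : ActMod.of act (ActMod.val act x) = x := rfl

theorem ActMod.val_smul (y : TT) (x : ActMod act) :
    ActMod.val act (y • x) = act y (ActMod.val act x) := rfl

theorem ActMod.val_injective : Function.Injective (ActMod.val act) := fun _ _ h => h

variable (m : Ideal TT)

/-- `W[𝔪]`: the elements killed by `𝔪`, a `TT ⧸ 𝔪`-module (Mathlib instance on
`Submodule.torsionBySet`). -/
abbrev Killed : Submodule TT (ActMod act) := Submodule.torsionBySet TT (ActMod act) (m : Set TT)

theorem mem_killed_iff (x : ActMod act) :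
    x ∈ Killed act m ↔ ∀ y ∈ m, act y (ActMod.val act x) = 0 := by
  rw [Submodule.mem_torsionBySet_iff]
  exact ⟨fun h y hy => h ⟨y, hy⟩, fun h y => h y.1 y.2⟩

/-- The underlying element of `W`. -/
def Killed.val : Killed act m →+ W := (ActMod.val act).comp (Killed act m).subtype.toAddMonoidHom

theorem Killed.val_injective : Function.Injective (Killed.val act m) := fun _ _ h =>
  Subtype.ext h

theorem Killed.val_mk_smul (y : TT) (x : Killed act m) :
    Killed.val act m (Ideal.Quotient.mk m y • x) = act y (Killed.val act m x) := rfl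

theorem Killed.apply_val_eq_zero {y : TT} (hy : y ∈ m) (x : Killed act m) :
    act y (Killed.val act m x) = 0 :=
  (mem_killed_iff act m x.1).mp x.2 y hy

/-- Elements of `W` killed by `𝔪`, as elements of `W[𝔪]`. -/
def Killed.mk (w : W) (hw : ∀ y ∈ m, act y w = 0) : Killed act m :=
  ⟨ActMod.of act w, (mem_killed_iff act m _).mpr hw⟩

@[simp] theorem Killed.val_mk (w : W) (hw : ∀ y ∈ m, act y w = 0) :
    Killed.val act m (Killed.mk act m w hw) = w := rfl

instance [Finite W] : Finite (Killed act m) :=
  Finite.of_injective _ (Killed.val_injective act m)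

instance [Finite W] : Module.Finite (TT ⧸ m) (Killed act m) := Module.Finite.of_finite

/-- `W[𝔪] ≠ 0` under the hypotheses of the support lemma. -/
theorem nontrivial_killed [Finite W] (hm : m ≠ ⊤) (hann : ∀ y, act y = 0 → y ∈ m) :
    Nontrivial (Killed act m) := by
  obtain ⟨w, hw0, hw⟩ := exists_ne_zero_killed act m hm hann
  refine ⟨⟨Killed.mk act m w hw, 0, fun h => hw0 ?_⟩⟩
  have h1 := congrArg (Killed.val act m) h
  rwa [Killed.val_mk, map_zero] at h1

/-- An additive endomorphism of `W` commuting with `TT` acts `TT ⧸ 𝔪`-linearly on `W[𝔪]`. -/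
def endKilled (φ : AddMonoid.End W) (hφ : ∀ y, Commute φ (act y)) :
    Module.End (TT ⧸ m) (Killed act m) where
  toFun x := Killed.mk act m (φ (Killed.val act m x)) (fun y hy => by
    have h1 : act y (φ (Killed.val act m x)) = φ (act y (Killed.val act m x)) := by
      have h0 := DFunLike.congr_fun (hφ y).eq (Killed.val act m x)
      simpa using h0.symm
    rw [h1, Killed.apply_val_eq_zero act m hy, map_zero])
  map_add' x x' := by
    apply Killed.val_injective
    simp only [Killed.val_mk, map_add]
  map_smul' c x := by
    obtain ⟨y, rfl⟩ := Ideal.Quotient.mk_surjective c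
    apply Killed.val_injective
    show φ (act y (Killed.val act m x)) = act y (φ (Killed.val act m x))
    have h0 := DFunLike.congr_fun (hφ y).eq (Killed.val act m x)
    simpa using h0

@[simp] theorem val_endKilled (φ : AddMonoid.End W) (hφ : ∀ y, Commute φ (act y))
    (x : Killed act m) : Killed.val act m (endKilled act m φ hφ x) = φ (Killed.val act m x) := rfl

theorem endKilled_one : endKilled act m 1 (fun _ => Commute.one_left _) = 1 := by
  refine LinearMap.ext fun x => Killed.val_injective act m ?_
  rfl

theorem endKilled_mul (φ ψ : AddMonoid.End W) (hφ : ∀ y, Commute φ (act y))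
    (hψ : ∀ y, Commute ψ (act y)) :
    endKilled act m (φ * ψ) (fun y => (hφ y).mul_left (hψ y)) =
      endKilled act m φ hφ * endKilled act m ψ hψ := by
  refine LinearMap.ext fun x => Killed.val_injective act m ?_
  rfl

/-- The Hecke operator `act t` acts on `W[𝔪]` as the scalar `t mod 𝔪`. -/
theorem endKilled_act (t : TT) :
    endKilled act m (act t) (fun y => by
      show act t * act y = act y * act t
      rw [← map_mul, ← map_mul, mul_comm]) =
      (Ideal.Quotient.mk m t) • (1 : Module.End (TT ⧸ m) (Killed act m)) := by
  refine LinearMap.ext fun x => Killed.val_injective act m ?_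
  rfl

variable {G : Type*} [Group G] (gal : G →* AddMonoid.End W)
  (hcomm : ∀ g y, Commute (gal g) (act y))

/-- **The Galois action on `W[𝔪]`**, `TT ⧸ 𝔪`-linear. -/
def galKilled : G →* Module.End (TT ⧸ m) (Killed act m) where
  toFun g := endKilled act m (gal g) (hcomm g)
  map_one' := by
    refine LinearMap.ext fun x => Killed.val_injective act m ?_
    rw [val_endKilled, map_one]
    rfl
  map_mul' g h := by
    refine LinearMap.ext fun x => Killed.val_injective act m ?_
    rw [val_endKilled, map_mul]
    rfl

@[simp] theorem val_galKilled (g : G) (x : Killed act m) :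
    Killed.val act m (galKilled act m gal hcomm g x) = gal g (Killed.val act m x) := rfl

theorem galKilled_eq_one {g : G} (hg : gal g = 1) : galKilled act m gal hcomm g = 1 := by
  refine LinearMap.ext fun x => Killed.val_injective act m ?_
  rw [val_galKilled, hg]
  rfl

theorem galKilled_eq_of_eq {g h : G} (hgh : gal g = gal h) :
    galKilled act m gal hcomm g = galKilled act m gal hcomm h := by
  refine LinearMap.ext fun x => Killed.val_injective act m ?_
  rw [val_galKilled, val_galKilled, hgh]

/-- **Relations restrict**: a quadratic relation for `gal g` on `W` with coefficients in `TT`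
gives the reduced relation on `W[𝔪]`. -/
theorem galKilled_quadratic {g : G} {t d : TT}
    (hrel : gal g * gal g - act t * gal g + act d = 0) :
    galKilled act m gal hcomm g * galKilled act m gal hcomm g
      - (Ideal.Quotient.mk m t) • galKilled act m gal hcomm g
      + (Ideal.Quotient.mk m d) • (1 : Module.End (TT ⧸ m) (Killed act m)) = 0 := by
  refine LinearMap.ext fun x => Killed.val_injective act m ?_
  have h1 := DFunLike.congr_fun hrel (Killed.val act m x)
  simp only [LinearMap.add_apply, LinearMap.sub_apply, LinearMap.smul_apply, Module.End.mul_apply,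
    Module.End.one_apply, LinearMap.zero_apply, map_add, map_sub, map_zero, Killed.val_mk_smul,
    val_galKilled]
  exact h1

end Killed

end Fermat.Agent.S48x.DS2.Supp
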